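/-
S18 / wave 4, bridge leaf B2b (helper85): SEPARABILITY of the characteristic-`ℓ` modular function
field over `K(j(q^N))`.

For an algebraically closed field `K` of characteristic `ℓ ∤ N`, every element of
`K(j(q^d) : d ∣ N) ⊆ K((q))` is separable over `K(j(q^N))`, hence over every intermediate field
containing `j(q^N)` (e.g. `K(x̄)` for a Hauptmodul `x̄`).

Proof: `j(q^d)` is a root of `Φ_p(X, j(q^{dp})) = (X - j(q^{dp²})) ∏_{b<p} (X - j(ζ^b q^d))`,
which has pairwise distinct roots when `p ≠ ℓ`; induction along the divisor chain.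

Input: the landed S28 library (`IsModPoly.fact_qSub`, `IsModPoly.eval_jS`); the existence of
modular polynomials enters as the hypothesis `hmod : HasModPolys` (discharged by
`Fermat.Agent.S28.H23.hasModPolys`).
-/
import Mathlib
import Fermat.Agent.S28.H53.AlgClosed

set_option autoImplicit false

noncomputable section

namespace Fermat.Agent.S18.H85

open ModularCurve Polynomial Fermat.Agent.S28

/-- A root of a polynomial which becomes separable in the big field is a separable element. -/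
theorem isSeparable_of_root {E L : Type*} [Field E] [Field L] [Algebra E L] (Q : E[X]) (y : L)
    (hroot : aeval y Q = 0) (hsep : (Q.map (algebraMap E L)).Separable) : IsSeparable E y :=
  ((Polynomial.separable_map (algebraMap E L)).1 hsep).of_dvd (minpoly.dvd E y hroot)

section Sep

variable (K : Type) [Field K]

/-- `Φ_p(X, j(q^{dp}))` has pairwise distinct roots in `K((q))`. -/
theorem separable_evalY_jS {p : ℕ} {Φ : Polynomial (Polynomial ℤ)} (hΦ : IsModPoly p Φ)
    (hp : p.Prime) (ζ : Kˣ) (hζ : IsPrimitiveRoot ζ p) (d : ℕ) (hd : d ≠ 0) :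
    (evalY (jS K 1 (d * p)) Φ).Separable := by
  have h := hΦ.fact_qSub hp K ζ hζ 1 d hd
  rw [one_pow, one_pow] at h
  rw [h]
  refine Separable.mul separable_X_sub_C ?_ ?_
  · rw [separable_prod_X_sub_C_iff']
    intro a ha b hb hab
    have h1 := congrArg (fun x : LaurentSeries K => x.coeff (-(d : ℤ))) hab
    simp only [jS_coeff_neg _ d hd] at h1
    have h2 : (ζ ^ a * 1)⁻¹ = (ζ ^ b * 1)⁻¹ := Units.ext h1
    rw [inv_inj, mul_one, mul_one] at h2
    exact hζ.pow_inj (Finset.mem_range.mp ha) (Finset.mem_range.mp hb) h2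
  · refine IsCoprime.prod_right fun b _ => ?_
    apply isCoprime_X_sub_C_of_isUnit_sub
    rw [isUnit_iff_ne_zero, sub_ne_zero]
    intro hab
    have hne : d * (p * p) ≠ 0 := Nat.mul_ne_zero hd (Nat.mul_ne_zero hp.ne_zero hp.ne_zero)
    have h1 := congrArg (fun x : LaurentSeries K => x.coeff (-((d * (p * p) : ℕ) : ℤ))) hab
    beta_reduce at h1
    have hlt : (-((d * (p * p) : ℕ) : ℤ)) < -(d : ℤ) := by
      have h2 : 1 < p * p := by nlinarith [hp.one_lt]
      have h3 : d < d * (p * p) := by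
        calc d = d * 1 := (mul_one d).symm
          _ < d * (p * p) := Nat.mul_lt_mul_of_pos_left h2 (Nat.pos_of_ne_zero hd)
      have h4 : (d : ℤ) < ((d * (p * p) : ℕ) : ℤ) := by exact_mod_cast h3
      linarith
    rw [jS_coeff_neg _ _ hne, jS_coeff_of_lt _ d hd _ hlt] at h1
    simp at h1

/-- One modular-equation step: `j(q^d)` is separable over any field containing `j(q^{dp})`. -/
theorem isSeparable_jS_of_mem {F : Type*} [Field F] [Algebra F (LaurentSeries K)]
    {p : ℕ} {Φ : Polynomial (Polynomial ℤ)} (hΦ : IsModPoly p Φ) (hp : p.Prime)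
    (ζ : Kˣ) (hζ : IsPrimitiveRoot ζ p)
    (d : ℕ) (hd : d ≠ 0) (C : IntermediateField F (LaurentSeries K))
    (h : jS K 1 (d * p) ∈ C) : IsSeparable C (jS K 1 d) := by
  refine isSeparable_of_root (evalY (⟨jS K 1 (d * p), h⟩ : C) Φ) _ ?_ ?_
  · rw [aeval_def, eval₂_eq_eval_map, H53.evalY_map]
    have h1 := (hΦ.eval_jS (R := K) hp (1 : Kˣ) d hd).1
    rw [one_pow] at h1
    exact h1
  · rw [H53.evalY_map]
    exact separable_evalY_jS K hΦ hp ζ hζ d hd

/-- The separability step over a fixed base field. -/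
theorem isSeparable_jS_step (E₀ : IntermediateField K (LaurentSeries K))
    {p : ℕ} {Φ : Polynomial (Polynomial ℤ)} (hΦ : IsModPoly p Φ) (hp : p.Prime)
    (ζ : Kˣ) (hζ : IsPrimitiveRoot ζ p) (d : ℕ) (hd : d ≠ 0)
    (h : IsSeparable E₀ (jS K 1 (d * p))) : IsSeparable E₀ (jS K 1 d) := by
  have h1 : IsSeparable (separableClosure E₀ (LaurentSeries K)) (jS K 1 d) :=
    isSeparable_jS_of_mem K hΦ hp ζ hζ d hd _ (mem_separableClosure_iff.mpr h)
  exact IsSeparable.of_algebra_isSeparable_of_isSeparable E₀ h1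

/-- Every `j(q^d)`, `d ∣ N`, is separable over any intermediate field containing `j(q^N)`,
provided modular polynomials and primitive roots of unity exist for the primes dividing `N`. -/
theorem isSeparable_jS_of_prim (E₀ : IntermediateField K (LaurentSeries K)) (N : ℕ) (hN : N ≠ 0)
    (hE₀ : jS K 1 N ∈ E₀)
    (hprim : ∀ p : ℕ, p.Prime → p ∣ N → ∃ ζ : Kˣ, IsPrimitiveRoot ζ p)
    (hmod : ∀ p : ℕ, p.Prime → p ∣ N → ∃ Φ : Polynomial (Polynomial ℤ), IsModPoly p Φ) :
    ∀ e d : ℕ, d * e = N → IsSeparable E₀ (jS K 1 d) := by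
  intro e
  induction e using Nat.strong_induction_on with
  | _ e ih =>
    intro d hde
    have hd : d ≠ 0 := fun h => hN (by rw [← hde, h, zero_mul])
    have he : e ≠ 0 := fun h => hN (by rw [← hde, h, mul_zero])
    rcases eq_or_ne e 1 with rfl | he1
    · rw [mul_one] at hde
      subst hde
      exact isSeparable_algebraMap (F := E₀) (⟨jS K 1 d, hE₀⟩ : E₀)
    · obtain ⟨p, hp, hpe⟩ := Nat.exists_prime_and_dvd he1
      obtain ⟨e', rfl⟩ := hpe
      have he' : e' ≠ 0 := fun h => he (by rw [h, mul_zero])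
      have hlt : e' < p * e' := by
        calc e' = 1 * e' := (one_mul e').symm
          _ < p * e' := Nat.mul_lt_mul_of_pos_right hp.one_lt (Nat.pos_of_ne_zero he')
      have hpN : p ∣ N := ⟨d * e', by rw [← hde]; ring⟩
      obtain ⟨Φ, hΦ⟩ := hmod p hp hpN
      obtain ⟨ζ, hζ⟩ := hprim p hp hpN
      exact isSeparable_jS_step K E₀ hΦ hp ζ hζ d hd (ih e' hlt (d * p) (by rw [← hde]; ring))

end Sep

/-- **Separability of the characteristic-`ℓ` modular function field.**  For `K` algebraically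
closed of characteristic `ℓ ∤ N`, every element of `K(j(q^d) : d ∣ N)` is separable over any
intermediate field `E₀` of `K((q))/K` containing `j(q^N)`. -/
theorem isSeparable_full_of_mem (hmod : HasModPolys) (K : Type) [Field K] [IsAlgClosed K]
    (ℓ : ℕ) [Fact ℓ.Prime] [CharP K ℓ] (N : ℕ) (hN : N ≠ 0) (hℓN : ¬ ℓ ∣ N)
    (E₀ : IntermediateField K (LaurentSeries K)) (hE₀ : jS K 1 N ∈ E₀)
    (y : LaurentSeries K)
    (hy : y ∈ IntermediateField.adjoin K {x : LaurentSeries K | ∃ d, d ∣ N ∧ x = jS K 1 d}) :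
    IsSeparable E₀ y := by
  have hpℓ : ∀ p : ℕ, p ∣ N → p ≠ ℓ := fun p hpN h => hℓN (h ▸ hpN)
  have hgen : ∀ d : ℕ, d ∣ N → IsSeparable E₀ (jS K 1 d) := by
    rintro d ⟨e, rfl⟩
    exact isSeparable_jS_of_prim K E₀ (d * e) hN hE₀
      (fun p hp hpN => H53.exists_primitiveRoot_unit K ℓ p hp (hpℓ p hpN))
      (fun p hp _ => hmod p hp) e d rfl
  have hle : IntermediateField.adjoin K {x : LaurentSeries K | ∃ d, d ∣ N ∧ x = jS K 1 d}
      ≤ (separableClosure E₀ (LaurentSeries K)).restrictScalars K := by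
    rw [IntermediateField.adjoin_le_iff]
    rintro x ⟨d, hd, rfl⟩
    exact mem_separableClosure_iff.mpr (hgen d hd)
  exact mem_separableClosure_iff.mp (hle hy)

/-- The special case `E₀ = K(j(q^N))`. -/
theorem isSeparable_full (hmod : HasModPolys) (K : Type) [Field K] [IsAlgClosed K]
    (ℓ : ℕ) [Fact ℓ.Prime] [CharP K ℓ] (N : ℕ) (hN : N ≠ 0) (hℓN : ¬ ℓ ∣ N)
    (y : LaurentSeries K)
    (hy : y ∈ IntermediateField.adjoin K {x : LaurentSeries K | ∃ d, d ∣ N ∧ x = jS K 1 d}) :
    IsSeparable (IntermediateField.adjoin K {jS K 1 N}) y :=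
  isSeparable_full_of_mem hmod K ℓ N hN hℓN _
    (IntermediateField.subset_adjoin K _ (Set.mem_singleton _)) y hy

end Fermat.Agent.S18.H85
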