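/-
S18 / wave 4, bridge leaf B2 (helper85): `Setup.basis` VERBATIM from abstract residue data.

Setting: `A` a valuation subring of `K`, `F/K` a field, `O` a valuation subring of `F`, `x ∈ O`,
`φ : O → L` a ring homomorphism into a field with kernel the maximal ideal, `ρ : A → k` a
surjective ring homomorphism with `φ(a) = ρ(a)` on constants (`L` a `k`-algebra), and the Gauss
property of `Setup.gauss`.  Then

* `res_mem_adjoin`, `exists_res_eq` : `φ(O ∩ K(x)) = k(x̄)` with `x̄ = φ x`;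
* `orth_of_lift` : a family of `O` whose reductions are `k(x̄)`-linearly independent is orthonormal;
* `setup_basis_of_residue` : if the residue degree is `≥ [F : K(x)]` and the residue extension is
  separable over `k(x̄)`, then the field `Setup.basis` holds (orthonormal basis with unit Gram
  determinant).

Mathlib + the landed `H74/Setup.lean` (for `gramDet`) + `H85/GramUnit.lean`.
-/
import Mathlib
import Fermat.Agent.S18.H74.Setup
import Fermat.Agent.S18.H85.GramUnit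

set_option autoImplicit false

open IntermediateField

noncomputable section

namespace Fermat.Agent.S18.H85

section Scaling

variable {K : Type*} [Field K] (A : ValuationSubring K)

/-- Every nonzero polynomial over the fraction field of a valuation ring is a constant multiple of
a primitive polynomial (coefficients in `A`, one of them a unit). -/
theorem exists_primitive_scale (p : Polynomial K) (hp : p ≠ 0) :
    ∃ (a : K) (p₀ : Polynomial K), a ≠ 0 ∧ p = Polynomial.C a * p₀ ∧ (∀ i, p₀.coeff i ∈ A) ∧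
      ∃ i, p₀.coeff i ≠ 0 ∧ (p₀.coeff i)⁻¹ ∈ A := by
  have hne : p.support.Nonempty := Polynomial.support_nonempty.mpr hp
  obtain ⟨i₀, hi₀, hmax⟩ := Finset.exists_max_image p.support
    (fun i => A.valuation (p.coeff i)) hne
  have ha : p.coeff i₀ ≠ 0 := Polynomial.mem_support_iff.mp hi₀
  have hva : A.valuation (p.coeff i₀) ≠ 0 := (map_ne_zero _).2 ha
  refine ⟨p.coeff i₀, Polynomial.C (p.coeff i₀)⁻¹ * p, ha, ?_, ?_, i₀, ?_, ?_⟩
  · rw [← mul_assoc, ← Polynomial.C_mul, mul_inv_cancel₀ ha, Polynomial.C_1, one_mul]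
  · intro i
    rw [Polynomial.coeff_C_mul]
    by_cases hi : i ∈ p.support
    · rw [← A.valuation_le_one_iff, map_mul, map_inv₀]
      calc (A.valuation (p.coeff i₀))⁻¹ * A.valuation (p.coeff i)
          ≤ (A.valuation (p.coeff i₀))⁻¹ * A.valuation (p.coeff i₀) :=
            mul_le_mul_right (hmax i hi) _
        _ = 1 := inv_mul_cancel₀ hva
    · rw [Polynomial.notMem_support_iff.mp hi, mul_zero]
      exact A.zero_mem
  · rw [Polynomial.coeff_C_mul, inv_mul_cancel₀ ha]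
    exact one_ne_zero
  · rw [Polynomial.coeff_C_mul, inv_mul_cancel₀ ha, inv_one]
    exact A.one_mem

/-- A polynomial with coefficients in `A` comes from `A[X]`. -/
theorem exists_poly_lift (p₀ : Polynomial K) (h : ∀ i, p₀.coeff i ∈ A) :
    ∃ P : Polynomial ↥A, P.map A.subtype = p₀ := by
  refine ⟨∑ i ∈ p₀.support, Polynomial.monomial i (⟨p₀.coeff i, h i⟩ : ↥A), ?_⟩
  rw [Polynomial.map_sum]
  simp only [Polynomial.map_monomial]
  exact (p₀.as_sum_support).symm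

end Scaling

section Res

variable {K : Type*} [Field K] (A : ValuationSubring K) {F : Type*} [Field F] [Algebra K F]
  (O : ValuationSubring F) (x : F)
  {L : Type*} [Field L] (φ : ↥O →+* L) {k : Type*} [Field k] [Algebra k L] (ρ : ↥A →+* k)

/-- The inclusion `A → O` of the constants. -/
def constHom (hmem : ∀ a : K, algebraMap K F a ∈ O ↔ a ∈ A) : ↥A →+* ↥O :=
  ((algebraMap K F).comp A.subtype).codRestrict O (fun a => (hmem a).2 a.2)

/-- Evaluation at `x` of polynomials with coefficients in `A`, with values in `O`. -/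
def evalHom (hmem : ∀ a : K, algebraMap K F a ∈ O ↔ a ∈ A) (hx : x ∈ O) :
    Polynomial ↥A →+* ↥O :=
  Polynomial.eval₂RingHom (constHom A O hmem) ⟨x, hx⟩

theorem coe_evalHom (hmem : ∀ a : K, algebraMap K F a ∈ O ↔ a ∈ A) (hx : x ∈ O)
    (P : Polynomial ↥A) :
    ((evalHom A O x hmem hx P : ↥O) : F) = Polynomial.aeval x (P.map A.subtype) := by
  have h := Polynomial.hom_eval₂ P (constHom A O hmem) O.subtype ⟨x, hx⟩
  rw [Polynomial.aeval_def, Polynomial.eval₂_map]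
  exact h

theorem phi_evalHom (hmem : ∀ a : K, algebraMap K F a ∈ O ↔ a ∈ A) (hx : x ∈ O)
    (hφρ : ∀ (a : ↥A) (h : algebraMap K F (a : K) ∈ O), φ ⟨_, h⟩ = algebraMap k L (ρ a))
    (P : Polynomial ↥A) :
    φ (evalHom A O x hmem hx P) = Polynomial.aeval (φ ⟨x, hx⟩) (P.map ρ) := by
  have h := Polynomial.hom_eval₂ P (constHom A O hmem) φ ⟨x, hx⟩
  rw [Polynomial.aeval_def, Polynomial.eval₂_map]
  have h2 : φ.comp (constHom A O hmem) = (algebraMap k L).comp ρ := by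
    ext a
    exact hφρ a _
  rw [← h2]
  exact h

/-- `φ` of the inverse of a unit. -/
theorem phi_inv (f : F) (hf : f ∈ O) (hf' : f⁻¹ ∈ O) : φ ⟨f⁻¹, hf'⟩ = (φ ⟨f, hf⟩)⁻¹ := by
  by_cases h0 : f = 0
  · subst h0
    have h1 : (⟨(0 : F)⁻¹, hf'⟩ : ↥O) = 0 := Subtype.ext inv_zero
    have h2 : (⟨(0 : F), hf⟩ : ↥O) = 0 := rfl
    rw [h1, h2, map_zero, inv_zero]
  · have h1 : φ ⟨f⁻¹, hf'⟩ * φ ⟨f, hf⟩ = 1 := by
      rw [← map_mul]
      have h2 : (⟨f⁻¹, hf'⟩ : ↥O) * ⟨f, hf⟩ = 1 := Subtype.ext (inv_mul_cancel₀ h0)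
      rw [h2, map_one]
    exact eq_inv_of_mul_eq_one_left h1

/-- `aeval` of a polynomial lies in the simple adjunction. -/
theorem aeval_mem_adjoin_simple {k' : Type*} [Field k'] {L' : Type*} [Field L'] [Algebra k' L']
    (z : L') (P : Polynomial k') : Polynomial.aeval z P ∈ k'⟮z⟯ := by
  rw [IntermediateField.mem_adjoin_simple_iff]
  exact ⟨P, 1, by simp⟩

/-- **`φ(O ∩ K(x)) ⊆ k(x̄)`.** -/
theorem res_mem_adjoin
    (hmem : ∀ a : K, algebraMap K F a ∈ O ↔ a ∈ A) (hx : x ∈ O)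
    (hφρ : ∀ (a : ↥A) (h : algebraMap K F (a : K) ∈ O), φ ⟨_, h⟩ = algebraMap k L (ρ a))
    (hgauss : ∀ p : Polynomial K, (∀ i, p.coeff i ∈ A) →
      (∃ i, p.coeff i ≠ 0 ∧ (p.coeff i)⁻¹ ∈ A) →
        Polynomial.aeval x p ∈ O ∧ (Polynomial.aeval x p)⁻¹ ∈ O)
    (r : F) (hrx : r ∈ K⟮x⟯) (hr : r ∈ O) : φ ⟨r, hr⟩ ∈ k⟮φ ⟨x, hx⟩⟯ := by
  rw [IntermediateField.mem_adjoin_simple_iff] at hrx
  obtain ⟨p, q, hpq⟩ := hrx
  by_cases hr0 : r = 0
  · subst hr0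
    have h1 : (⟨(0 : F), hr⟩ : ↥O) = 0 := rfl
    rw [h1, map_zero]
    exact zero_mem _
  have hp : p ≠ 0 := by
    rintro rfl
    rw [map_zero, zero_div] at hpq
    exact hr0 hpq
  have hq : q ≠ 0 := by
    rintro rfl
    rw [map_zero, div_zero] at hpq
    exact hr0 hpq
  obtain ⟨a, p₀, ha, hp₀, hp₀A, hp₀u⟩ := exists_primitive_scale A p hp
  obtain ⟨b, q₀, hb, hq₀, hq₀A, hq₀u⟩ := exists_primitive_scale A q hq
  obtain ⟨P, hP⟩ := exists_poly_lift A p₀ hp₀A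
  obtain ⟨Q, hQ⟩ := exists_poly_lift A q₀ hq₀A
  obtain ⟨hpO, hpO'⟩ := hgauss p₀ hp₀A hp₀u
  obtain ⟨hqO, hqO'⟩ := hgauss q₀ hq₀A hq₀u
  have hp₀0 : Polynomial.aeval x p₀ ≠ 0 := by
    intro h
    apply hr0
    rw [hpq, hp₀, map_mul, h, mul_zero, zero_div]
  have hq₀0 : Polynomial.aeval x q₀ ≠ 0 := by
    intro h
    apply hr0
    rw [hpq, hq₀, map_mul (Polynomial.aeval x), h, mul_zero, div_zero]
  have hab : algebraMap K F (a / b) ∈ O := by
    have h1 : algebraMap K F (a / b)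
        = r * (Polynomial.aeval x q₀ * (Polynomial.aeval x p₀)⁻¹) := by
      rw [hpq, hp₀, hq₀, map_mul, map_mul, Polynomial.aeval_C, Polynomial.aeval_C, map_div₀]
      have hb' : algebraMap K F b ≠ 0 := by simpa using hb
      field_simp
    rw [h1]
    exact mul_mem hr (mul_mem hqO hpO')
  have habA : a / b ∈ A := (hmem _).1 hab
  -- `r = (a/b) · P(x) · Q(x)⁻¹` inside `O`
  have hPe : ((evalHom A O x hmem hx P : ↥O) : F) = Polynomial.aeval x p₀ := by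
    rw [coe_evalHom, hP]
  have hQe : ((evalHom A O x hmem hx Q : ↥O) : F) = Polynomial.aeval x q₀ := by
    rw [coe_evalHom, hQ]
  have hQinv : ((evalHom A O x hmem hx Q : ↥O) : F)⁻¹ ∈ O := by rw [hQe]; exact hqO'
  have hdecomp : (⟨r, hr⟩ : ↥O) = constHom A O hmem ⟨a / b, habA⟩ * evalHom A O x hmem hx P *
      ⟨((evalHom A O x hmem hx Q : ↥O) : F)⁻¹, hQinv⟩ := by
    apply Subtype.ext
    change r = algebraMap K F (a / b) * ((evalHom A O x hmem hx P : ↥O) : F) *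
      ((evalHom A O x hmem hx Q : ↥O) : F)⁻¹
    rw [hPe, hQe, hpq, hp₀, hq₀, map_mul, map_mul, Polynomial.aeval_C, Polynomial.aeval_C,
      map_div₀]
    have hb' : algebraMap K F b ≠ 0 := by simpa using hb
    field_simp
  rw [hdecomp, map_mul, map_mul, phi_inv O φ _ (evalHom A O x hmem hx Q).2 hQinv]
  have h3 : φ (constHom A O hmem ⟨a / b, habA⟩) = algebraMap k L (ρ ⟨a / b, habA⟩) :=
    hφρ ⟨a / b, habA⟩ _
  have h4 : (⟨((evalHom A O x hmem hx Q : ↥O) : F), (evalHom A O x hmem hx Q).2⟩ : ↥O)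
      = evalHom A O x hmem hx Q := rfl
  rw [h3, h4, phi_evalHom A O x φ ρ hmem hx hφρ, phi_evalHom A O x φ ρ hmem hx hφρ]
  exact mul_mem (mul_mem (IntermediateField.algebraMap_mem _ _) (aeval_mem_adjoin_simple _ _))
    (inv_mem (aeval_mem_adjoin_simple _ _))

/-- **`k(x̄) ⊆ φ(O ∩ K(x))`.** -/
theorem exists_res_eq (hφ : ∀ f : ↥O, φ f = 0 ↔ (f : F) ∈ O.nonunits)
    (hρ : Function.Surjective ρ)
    (hmem : ∀ a : K, algebraMap K F a ∈ O ↔ a ∈ A) (hx : x ∈ O)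
    (hφρ : ∀ (a : ↥A) (h : algebraMap K F (a : K) ∈ O), φ ⟨_, h⟩ = algebraMap k L (ρ a))
    (y : L) (hy : y ∈ k⟮φ ⟨x, hx⟩⟯) :
    ∃ (r : F) (_ : r ∈ K⟮x⟯) (hr : r ∈ O), φ ⟨r, hr⟩ = y := by
  rw [IntermediateField.mem_adjoin_simple_iff] at hy
  obtain ⟨Pb, Qb, hPQ⟩ := hy
  by_cases hQ0 : Polynomial.aeval (φ ⟨x, hx⟩) Qb = 0
  · refine ⟨0, zero_mem _, O.zero_mem, ?_⟩
    have h1 : (⟨(0 : F), O.zero_mem⟩ : ↥O) = 0 := rfl
    rw [h1, map_zero, hPQ, hQ0, div_zero]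
  obtain ⟨P, rfl⟩ := Polynomial.map_surjective ρ hρ Pb
  obtain ⟨Q, rfl⟩ := Polynomial.map_surjective ρ hρ Qb
  have hQφ : φ (evalHom A O x hmem hx Q) ≠ 0 := by
    rw [phi_evalHom A O x φ ρ hmem hx hφρ]
    exact hQ0
  have hQnu : ((evalHom A O x hmem hx Q : ↥O) : F) ∉ O.nonunits := fun h => hQφ ((hφ _).2 h)
  obtain ⟨hQne, hQinv⟩ := inv_mem_of_not_nonunits O hQnu
  refine ⟨((evalHom A O x hmem hx P : ↥O) : F) * ((evalHom A O x hmem hx Q : ↥O) : F)⁻¹, ?_,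
    mul_mem (evalHom A O x hmem hx P).2 hQinv, ?_⟩
  · rw [coe_evalHom, coe_evalHom]
    exact mul_mem (aeval_mem_adjoin_simple _ _) (inv_mem (aeval_mem_adjoin_simple _ _))
  · have h1 : (⟨((evalHom A O x hmem hx P : ↥O) : F) * ((evalHom A O x hmem hx Q : ↥O) : F)⁻¹,
        mul_mem (evalHom A O x hmem hx P).2 hQinv⟩ : ↥O)
        = evalHom A O x hmem hx P * ⟨((evalHom A O x hmem hx Q : ↥O) : F)⁻¹, hQinv⟩ := rfl
    rw [h1, map_mul, phi_inv O φ _ (evalHom A O x hmem hx Q).2 hQinv]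
    have h4 : (⟨((evalHom A O x hmem hx Q : ↥O) : F), (evalHom A O x hmem hx Q).2⟩ : ↥O)
        = evalHom A O x hmem hx Q := rfl
    rw [h4, phi_evalHom A O x φ ρ hmem hx hφρ, phi_evalHom A O x φ ρ hmem hx hφρ, hPQ,
      div_eq_mul_inv]

end Res

section Basis

variable {K : Type*} [Field K] (A : ValuationSubring K) {F : Type*} [Field F] [Algebra K F]
  (O : ValuationSubring F) (x : F)
  {L : Type*} [Field L] (φ : ↥O →+* L) {k : Type*} [Field k] [Algebra k L] (ρ : ↥A →+* k)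

/-- **Lifted families are orthonormal.**  If the reductions of `t i ∈ O` are linearly independent
over `k(x̄)`, then `∑ rᵢ tᵢ ∈ O ↔ ∀ i, rᵢ ∈ O` for `rᵢ ∈ K(x)`. -/
theorem orth_of_lift (hφ : ∀ f : ↥O, φ f = 0 ↔ (f : F) ∈ O.nonunits)
    (hmem : ∀ a : K, algebraMap K F a ∈ O ↔ a ∈ A) (hx : x ∈ O)
    (hφρ : ∀ (a : ↥A) (h : algebraMap K F (a : K) ∈ O), φ ⟨_, h⟩ = algebraMap k L (ρ a))
    (hgauss : ∀ p : Polynomial K, (∀ i, p.coeff i ∈ A) →
      (∃ i, p.coeff i ≠ 0 ∧ (p.coeff i)⁻¹ ∈ A) →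
        Polynomial.aeval x p ∈ O ∧ (Polynomial.aeval x p)⁻¹ ∈ O)
    {μ : ℕ} (t : Fin μ → ↥O)
    (hli : LinearIndependent ↥(k⟮φ ⟨x, hx⟩⟯) (fun i => φ (t i)))
    (r : Fin μ → K⟮x⟯) :
    (∑ i, (r i : F) * (t i : F)) ∈ O ↔ ∀ i, (r i : F) ∈ O := by
  constructor
  · intro hsum
    by_contra hcon
    push Not at hcon
    obtain ⟨i₁, hi₁⟩ := hcon
    obtain ⟨i₀, -, hmax⟩ := Finset.exists_max_image (Finset.univ : Finset (Fin μ))
      (fun i => O.valuation (r i : F)) ⟨i₁, Finset.mem_univ _⟩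
    have hi₀ : ¬ O.valuation (r i₀ : F) ≤ 1 := by
      intro h
      exact hi₁ ((O.valuation_le_one_iff _).1 ((hmax i₁ (Finset.mem_univ _)).trans h))
    have hr₀ : (r i₀ : F) ≠ 0 := by
      intro h
      apply hi₀
      rw [h, map_zero]
      exact zero_le_one
    have hv₀ : O.valuation (r i₀ : F) ≠ 0 := (map_ne_zero _).2 hr₀
    have hinv : (r i₀ : F)⁻¹ ∈ O.nonunits := by
      rw [ValuationSubring.mem_nonunits_iff_or]
      right
      rw [inv_inv]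
      exact fun h => hi₀ ((O.valuation_le_one_iff _).2 h)
    -- the normalised coefficients
    have hs : ∀ i, (((r i₀)⁻¹ * r i : K⟮x⟯) : F) ∈ O := by
      intro i
      rw [← O.valuation_le_one_iff]
      have h1 : (((r i₀)⁻¹ * r i : K⟮x⟯) : F) = (r i₀ : F)⁻¹ * (r i : F) := by
        push_cast
        rfl
      rw [h1, map_mul, map_inv₀]
      calc (O.valuation (r i₀ : F))⁻¹ * O.valuation (r i : F)
          ≤ (O.valuation (r i₀ : F))⁻¹ * O.valuation (r i₀ : F) :=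
            mul_le_mul_right (hmax i (Finset.mem_univ _)) _
        _ = 1 := inv_mul_cancel₀ hv₀
    have hsum' : (∑ i, algebraMap (↥K⟮x⟯) F ((r i₀)⁻¹ * r i) * (t i : F)) ∈ O.nonunits := by
      have h1 : (∑ i, algebraMap (↥K⟮x⟯) F ((r i₀)⁻¹ * r i) * (t i : F))
          = (r i₀ : F)⁻¹ * ∑ i, (r i : F) * (t i : F) := by
        rw [Finset.mul_sum]
        refine Finset.sum_congr rfl fun i _ => ?_
        rw [map_mul, map_inv₀, mul_assoc]
        rfl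
      rw [h1]
      exact nonunits_mul_mem O hinv hsum
    have hsO : (∑ i, algebraMap (↥K⟮x⟯) F ((r i₀)⁻¹ * r i) * (t i : F)) ∈ O :=
      sum_mem fun i _ => mul_mem (hs i) (t i).2
    have h0 : φ ⟨_, hsO⟩ = 0 := (hφ _).2 hsum'
    rw [phi_sum O φ (fun i => (t i : F)) (fun i => (t i).2) (fun i => (r i₀)⁻¹ * r i) hs hsO]
      at h0
    -- the reduced coefficients lie in `k(x̄)`
    have hc : ∀ i, φ ⟨_, hs i⟩ ∈ k⟮φ ⟨x, hx⟩⟯ := fun i =>
      res_mem_adjoin A O x φ ρ hmem hx hφρ hgauss _ ((r i₀)⁻¹ * r i).2 (hs i)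
    have h2 : ∑ i, (⟨φ ⟨_, hs i⟩, hc i⟩ : ↥(k⟮φ ⟨x, hx⟩⟯)) • φ (t i) = 0 := by
      rw [← h0]
      refine Finset.sum_congr rfl fun i _ => ?_
      rw [IntermediateField.smul_def]
      rfl
    have h3 := Fintype.linearIndependent_iff.1 hli _ h2 i₀
    have h4 : φ ⟨_, hs i₀⟩ = 0 := congrArg Subtype.val h3
    have h5 : (⟨_, hs i₀⟩ : ↥O) = 1 := by
      apply Subtype.ext
      change (((r i₀)⁻¹ * r i₀ : K⟮x⟯) : F) = 1
      have hr₀' : r i₀ ≠ 0 := fun h => hr₀ (by rw [h]; rfl)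
      rw [inv_mul_cancel₀ hr₀']
      rfl
    rw [h5, map_one] at h4
    exact one_ne_zero h4
  · intro h
    exact sum_mem fun i _ => mul_mem (h i) (t i).2

/-- **`Setup.basis` from abstract residue data**: residue degree `≥ [F : K(x)]` (as a linearly
independent family over `k(x̄)` in the image of `φ`) and separability of the residue extension
over `k(x̄)` give an orthonormal basis with unit Gram determinant. -/
theorem setup_basis_of_residue [FiniteDimensional K⟮x⟯ F]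
    (hφ : ∀ f : ↥O, φ f = 0 ↔ (f : F) ∈ O.nonunits)
    (hρ : Function.Surjective ρ)
    (hmem : ∀ a : K, algebraMap K F a ∈ O ↔ a ∈ A) (hx : x ∈ O)
    (hφρ : ∀ (a : ↥A) (h : algebraMap K F (a : K) ∈ O), φ ⟨_, h⟩ = algebraMap k L (ρ a))
    (hgauss : ∀ p : Polynomial K, (∀ i, p.coeff i ∈ A) →
      (∃ i, p.coeff i ≠ 0 ∧ (p.coeff i)⁻¹ ∈ A) →
        Polynomial.aeval x p ∈ O ∧ (Polynomial.aeval x p)⁻¹ ∈ O)
    (hA : A ≠ ⊤)
    (hscale : ∀ f : F, f ≠ 0 →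
      ∃ c : K, c ≠ 0 ∧ algebraMap K F c * f ∈ O ∧ (algebraMap K F c * f)⁻¹ ∈ O)
    (hdeg : ∃ t : Fin (Module.finrank K⟮x⟯ F) → ↥O,
      LinearIndependent ↥(k⟮φ ⟨x, hx⟩⟯) (fun i => φ (t i)))
    (hsep : ∀ f : ↥O, IsSeparable ↥(k⟮φ ⟨x, hx⟩⟯) (φ f)) :
    ∃ θ : Fin (Module.finrank K⟮x⟯ F) → F,
      (∀ r : Fin (Module.finrank K⟮x⟯ F) → K⟮x⟯,
        (∑ i, (r i : F) * θ i) ∈ O ↔ ∀ i, (r i : F) ∈ O) ∧
      ((H74.gramDet K F x θ : K⟮x⟯) : F)⁻¹ ∈ O := by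
  obtain ⟨t, ht⟩ := hdeg
  have horth := orth_of_lift A O x φ ρ hφ hmem hx hφρ hgauss t ht
  refine ⟨fun i => (t i : F), horth, ?_⟩
  have hnt : ∃ e : K⟮x⟯, algebraMap (↥K⟮x⟯) F e ∉ O := by
    have h1 : ∃ a : K, a ∉ A := by
      by_contra hcon
      push Not at hcon
      exact hA (eq_top_iff.2 fun a _ => hcon a)
    obtain ⟨a, ha⟩ := h1
    exact ⟨algebraMap K (↥K⟮x⟯) a, fun h => ha ((hmem a).1 h)⟩
  have hval : ∀ g : F, g ≠ 0 → ∃ c : K⟮x⟯, c ≠ 0 ∧ algebraMap (↥K⟮x⟯) F c * g ∈ O ∧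
      (algebraMap (↥K⟮x⟯) F c * g)⁻¹ ∈ O := by
    intro g hg
    obtain ⟨c, hc, h1, h2⟩ := hscale g hg
    exact ⟨algebraMap K (↥K⟮x⟯) c, by simpa using hc, h1, h2⟩
  have h1 : ∀ (r : K⟮x⟯) (hr : algebraMap (↥K⟮x⟯) F r ∈ O),
      φ ⟨_, hr⟩ ∈ (algebraMap (↥(k⟮φ ⟨x, hx⟩⟯)) L).range := by
    intro r hr
    exact ⟨⟨_, res_mem_adjoin A O x φ ρ hmem hx hφρ hgauss _ r.2 hr⟩, rfl⟩
  have h2 : ∀ y : ↥(k⟮φ ⟨x, hx⟩⟯), ∃ (r : K⟮x⟯) (hr : algebraMap (↥K⟮x⟯) F r ∈ O),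
      φ ⟨_, hr⟩ = algebraMap (↥(k⟮φ ⟨x, hx⟩⟯)) L y := by
    intro y
    obtain ⟨r, hrx, hr, hry⟩ := exists_res_eq A O x φ ρ hφ hρ hmem hx hφρ (y : L) y.2
    exact ⟨⟨r, hrx⟩, hr, hry⟩
  exact (gram_unit O φ hφ h1 h2 hsep hnt hval (fun i => (t i : F)) horth).2

end Basis

end Fermat.Agent.S18.H85
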