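/-
S18 / wave 4, bridge leaf B2 (helper85): `basis_of_degree` of helper28's bridge sub-skeleton
(`H28/SetupSkel.lean`), VERBATIM up to unfolding the local abbreviations `kA`, `redA`, `incA`
and the definition `IsGaussRing` of that file.

For a level `N'` prime to `ℓ`, the Gauss ring `O` of `F_{N'}` and a base function `x` which is the
base change of an `A`-integral series `X0` whose reduction `x̄` is transcendental, lies in `F_k`,
with `[F_k : k(x̄)] ≥ [F : K(x)]` and `F_k / k(x̄)` separable: `F` has an orthonormal `K(x)`-basis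
with unit Gram determinant (the field `Setup.basis`).

Also: `gauss_of_transcendental` (generic `Setup.gauss`), `eq_gaussO` (a valuation ring with the
Gauss carrier is helper66's `gaussO`), `gauss_gaussRing` (the leaf `IsGaussRing.gauss`).

Inputs: the landed `H66/GaussRing.lean` (helper66) and `H85/BasisOfRes.lean`.
-/
import Mathlib
import Fermat.Agent.S18.H74.TopDefs
import Fermat.Agent.S18.H66.GaussRing
import Fermat.Agent.S18.H85.BasisOfRes

set_option autoImplicit false

open IntermediateField ModularCurve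

noncomputable section

namespace Fermat.Agent.S18.H85

open Fermat.Agent.S18.H74

section Generic

variable {K : Type*} [Field K] (A : ValuationSubring K) {F : Type*} [Field F] [Algebra K F]
  (O : ValuationSubring F) (x : F)
  {L : Type*} [Field L] (φ : ↥O →+* L) {k : Type*} [Field k] [Algebra k L] (ρ : ↥A →+* k)

/-- **`Setup.gauss` from transcendence of the reduced base function.** -/
theorem gauss_of_transcendental (hφ : ∀ f : ↥O, φ f = 0 ↔ (f : F) ∈ O.nonunits)
    (hmem : ∀ a : K, algebraMap K F a ∈ O ↔ a ∈ A) (hx : x ∈ O)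
    (hφρ : ∀ (a : ↥A) (h : algebraMap K F (a : K) ∈ O), φ ⟨_, h⟩ = algebraMap k L (ρ a))
    (htr : Transcendental k (φ ⟨x, hx⟩))
    (p : Polynomial K) (hp : ∀ i, p.coeff i ∈ A) (hp1 : ∃ i, p.coeff i ≠ 0 ∧ (p.coeff i)⁻¹ ∈ A) :
    Polynomial.aeval x p ∈ O ∧ (Polynomial.aeval x p)⁻¹ ∈ O := by
  obtain ⟨P, hP⟩ := exists_poly_lift A p hp
  have h1 : ((evalHom A O x hmem hx P : ↥O) : F) = Polynomial.aeval x p := by
    rw [coe_evalHom, hP]
  have h2 : P.map ρ ≠ 0 := by
    obtain ⟨i, hi0, hi⟩ := hp1
    intro h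
    have h3 : ρ (P.coeff i) = 0 := by
      have := congrArg (fun q => Polynomial.coeff q i) h
      simpa only [Polynomial.coeff_map, Polynomial.coeff_zero] using this
    have h4 : ((P.coeff i : ↥A) : K) = p.coeff i := by
      rw [← hP, Polynomial.coeff_map]
      rfl
    have h5 : P.coeff i * (⟨(p.coeff i)⁻¹, hi⟩ : ↥A) = 1 := by
      apply Subtype.ext
      change ((P.coeff i : ↥A) : K) * (p.coeff i)⁻¹ = 1
      rw [h4]
      exact mul_inv_cancel₀ hi0
    have h6 := congrArg ρ h5
    rw [map_mul, h3, zero_mul, map_one] at h6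
    exact zero_ne_one h6
  have h7 : φ (evalHom A O x hmem hx P) ≠ 0 := by
    rw [phi_evalHom A O x φ ρ hmem hx hφρ]
    exact fun h => h2 ((transcendental_iff.1 htr) _ h)
  have h8 : ((evalHom A O x hmem hx P : ↥O) : F) ∉ O.nonunits := fun h => h7 ((hφ _).2 h)
  obtain ⟨-, h9⟩ := inv_mem_of_not_nonunits O h8
  rw [h1] at h9
  exact ⟨h1 ▸ (evalHom A O x hmem hx P).2, h9⟩

end Generic

section Modular

variable (N' : ℕ) [NeZero N'] {ℓ : ℕ} [Fact ℓ.Prime] (hℓN' : ¬ ℓ ∣ N')
  (A : ValuationSubring Kb) (hA : A.LiesOverPrime ℓ)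

/-- A valuation ring of `F_{N'}` with the Gauss carrier (ratios of `A`-integral series with
denominator of nonzero reduction) is helper66's `gaussO`. -/
theorem eq_gaussO (O : ValuationSubring (FN N'))
    (hO : ∀ f : FN N', f ∈ O ↔ ∃ y₁ y₂ : LaurentSeries A,
      coeffMap (IsLocalRing.residue A) y₂ ≠ 0 ∧
        (f : LaurentSeries Kb) * coeffMap A.subtype y₂ = coeffMap A.subtype y₁) :
    O = H66.gaussO A N' hA hℓN' := by
  ext f
  rw [hO f]
  constructor
  · rintro ⟨y₁, y₂, hy₂, hf⟩
    rcases (H66.gaussO A N' hA hℓN').mem_or_inv_mem f with h | h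
    · exact h
    · by_contra hcon
      have hnu : f⁻¹ ∈ (H66.gaussO A N' hA hℓN').nonunits := by
        rw [ValuationSubring.mem_nonunits_iff_or]
        right
        rw [inv_inv]
        exact hcon
      obtain ⟨z₁, z₂, hz₁, hz₂, -, hfz⟩ :=
        (H66.mem_nonunits_gaussO_iff A N' hA hℓN' f⁻¹).1 hnu
      have hf0 : f ≠ 0 := fun h0 => hcon (h0 ▸ zero_mem _)
      have hone : ((f : FN N') : LaurentSeries Kb) * ((f⁻¹ : FN N') : LaurentSeries Kb) = 1 := by
        have h1 : f * f⁻¹ = 1 := mul_inv_cancel₀ hf0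
        have h2 := congrArg (fun z : FN N' => (z : LaurentSeries Kb)) h1
        exact h2
      have h1 : coeffMap A.subtype (y₂ * z₂) = coeffMap A.subtype (y₁ * z₁) := by
        rw [map_mul, map_mul, ← hf, ← hfz]
        calc coeffMap A.subtype y₂ * coeffMap A.subtype z₂
            = ((f : FN N') : LaurentSeries Kb) * ((f⁻¹ : FN N') : LaurentSeries Kb) *
                (coeffMap A.subtype y₂ * coeffMap A.subtype z₂) := by rw [hone, one_mul]
          _ = _ := by ring
      have h2 : y₂ * z₂ = y₁ * z₁ := H66.incl_injective A h1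
      have h3 := congrArg (coeffMap (IsLocalRing.residue A)) h2
      rw [map_mul, map_mul, hz₁, mul_zero] at h3
      exact (mul_ne_zero hy₂ hz₂) h3
  · intro h
    obtain ⟨y₁, y₂, hy₂, -, hf⟩ := (H66.mem_gaussO_iff A N' hA hℓN' f).1 h
    exact ⟨y₁, y₂, hy₂, hf⟩

include hℓN' hA in
/-- **Leaf B2 `basis_of_degree`** of the bridge sub-skeleton (helper28), with `kA`, `redA`, `incA`,
`IsGaussRing` unfolded. -/
theorem basis_of_degree (O : ValuationSubring (FN N'))
    (hO : ∀ f : FN N', f ∈ O ↔ ∃ y₁ y₂ : LaurentSeries A,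
      coeffMap (IsLocalRing.residue A) y₂ ≠ 0 ∧
        (f : LaurentSeries Kb) * coeffMap A.subtype y₂ = coeffMap A.subtype y₁)
    (X0 : LaurentSeries A) (x : FN N') (hx : (x : LaurentSeries Kb) = coeffMap A.subtype X0)
    (hxk : coeffMap (IsLocalRing.residue A) X0 ∈
      modularFunctionFieldFullC (IsLocalRing.ResidueField A) N')
    (htr : Transcendental (IsLocalRing.ResidueField A) (coeffMap (IsLocalRing.residue A) X0))
    (hfin : FiniteDimensional Kb⟮x⟯ (FN N'))
    (hdeg : Module.finrank Kb⟮x⟯ (FN N') ≤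
      IntermediateField.relfinrank
        (IntermediateField.adjoin (IsLocalRing.ResidueField A)
          {coeffMap (IsLocalRing.residue A) X0})
        (modularFunctionFieldFullC (IsLocalRing.ResidueField A) N'))
    (hsep : ∀ y ∈ modularFunctionFieldFullC (IsLocalRing.ResidueField A) N',
      IsSeparable (IntermediateField.adjoin (IsLocalRing.ResidueField A)
        {coeffMap (IsLocalRing.residue A) X0}) y) :
    ∃ θ : Fin (Module.finrank Kb⟮x⟯ (FN N')) → FN N',
      (∀ r : Fin (Module.finrank Kb⟮x⟯ (FN N')) → Kb⟮x⟯,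
        (∑ i, (r i : FN N') * θ i) ∈ O ↔ ∀ i, (r i : FN N') ∈ O) ∧
      ((gramDet Kb (FN N') x θ : Kb⟮x⟯) : FN N')⁻¹ ∈ O := by
  obtain rfl := eq_gaussO N' hℓN' A hA O hO
  -- the residue map, with values in `k((q))`
  let φ : ↥(H66.gaussO A N' hA hℓN') →+* LaurentSeries (IsLocalRing.ResidueField A) :=
    (algebraMap ↥(modularFunctionFieldFullC (IsLocalRing.ResidueField A) N')
      (LaurentSeries (IsLocalRing.ResidueField A))).comp (H66.gaussResO A N' hA hℓN')
  have hφdef : ∀ f, φ f = ((H66.gaussResO A N' hA hℓN' f :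
      ↥(modularFunctionFieldFullC (IsLocalRing.ResidueField A) N')) :
        LaurentSeries (IsLocalRing.ResidueField A)) := fun f => rfl
  have hφ : ∀ f : ↥(H66.gaussO A N' hA hℓN'),
      φ f = 0 ↔ (f : FN N') ∈ (H66.gaussO A N' hA hℓN').nonunits := by
    intro f
    rw [ValuationSubring.coe_mem_nonunits_iff, IsLocalRing.mem_maximalIdeal, mem_nonunits_iff,
      ← H66.gaussResO_eq_zero_iff A N' hA hℓN' f, hφdef]
    constructor
    · intro h
      exact Subtype.ext h
    · intro h
      rw [h]
      rfl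
  have hmem := H66.algebraMap_mem_gaussO_iff A N' hA hℓN'
  have hxF : coeffMap A.subtype X0 ∈ modularFunctionFieldBar N' := hx ▸ x.2
  have hx' : x = ⟨coeffMap A.subtype X0, hxF⟩ := Subtype.ext hx
  have hxO : x ∈ H66.gaussO A N' hA hℓN' := by
    rw [hx']
    exact H66.integral_mem_gaussO A N' hA hℓN' X0 hxF
  have hφx : φ ⟨x, hxO⟩ = coeffMap (IsLocalRing.residue A) X0 := by
    subst hx'
    exact H66.coe_gaussResO_integral A N' hA hℓN' X0 hxF
  have hφρ : ∀ (a : ↥A) (h : algebraMap Kb (FN N') (a : Kb) ∈ H66.gaussO A N' hA hℓN'),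
      φ ⟨_, h⟩ = algebraMap (IsLocalRing.ResidueField A)
        (LaurentSeries (IsLocalRing.ResidueField A)) (IsLocalRing.residue A a) := by
    intro a h
    have hCF : coeffMap A.subtype (HahnSeries.C a : LaurentSeries A) ∈
        modularFunctionFieldBar N' := by
      rw [H66.coeffMap_C]
      exact H66.C_mem _ _
    have h1 := H66.coe_gaussResO_integral A N' hA hℓN' (HahnSeries.C a) hCF
    have h2 : (⟨algebraMap Kb (FN N') (a : Kb), h⟩ : ↥(H66.gaussO A N' hA hℓN'))
        = ⟨⟨coeffMap A.subtype (HahnSeries.C a : LaurentSeries A), hCF⟩,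
            H66.integral_mem_gaussO A N' hA hℓN' (HahnSeries.C a) hCF⟩ := by
      apply Subtype.ext
      apply Subtype.ext
      change algebraMap Kb (LaurentSeries Kb) (a : Kb)
        = coeffMap A.subtype (HahnSeries.C a : LaurentSeries A)
      rw [H66.coeffMap_C, H66.C_eq_algebraMap]
      rfl
    rw [h2, hφdef, h1, H66.coeffMap_C, H66.C_eq_algebraMap]
  have hA' : A ≠ ⊤ := by
    rintro rfl
    have h1 : ((ℓ : ℕ) : Kb) ∈ (⊤ : ValuationSubring Kb).nonunits := hA
    rw [ValuationSubring.mem_nonunits_iff_or] at h1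
    rcases h1 with h1 | h1
    · exact (Nat.cast_ne_zero.mpr (Fact.out : ℓ.Prime).ne_zero) h1
    · exact h1 (ValuationSubring.mem_top _)
  have hscale := H66.exists_scale_gaussO A N' hA hℓN'
  -- the two hypotheses depending on the reduced base function
  have key : ∀ z : LaurentSeries (IsLocalRing.ResidueField A),
      z = coeffMap (IsLocalRing.residue A) X0 →
      Transcendental (IsLocalRing.ResidueField A) z ∧
      (∃ t : Fin (Module.finrank Kb⟮x⟯ (FN N')) → ↥(H66.gaussO A N' hA hℓN'),
        LinearIndependent ↥((IsLocalRing.ResidueField A)⟮z⟯) (fun i => φ (t i))) ∧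
      (∀ f : ↥(H66.gaussO A N' hA hℓN'),
        IsSeparable ↥((IsLocalRing.ResidueField A)⟮z⟯) (φ f)) := by
    rintro z rfl
    refine ⟨htr, ?_, fun f => hsep _ (H66.gaussResO A N' hA hℓN' f).2⟩
    have hle : (IsLocalRing.ResidueField A)⟮coeffMap (IsLocalRing.residue A) X0⟯ ≤
        modularFunctionFieldFullC (IsLocalRing.ResidueField A) N' := by
      rw [IntermediateField.adjoin_le_iff, Set.singleton_subset_iff]
      exact hxk
    rw [IntermediateField.relfinrank_eq_finrank_of_le hle] at hdeg
    obtain ⟨g, hg⟩ := exists_linearIndependent_of_le_finrank hdeg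
    have hg' : LinearIndependent ↥((IsLocalRing.ResidueField A)⟮coeffMap (IsLocalRing.residue A) X0⟯)
        (fun i => ((g i : ↥(IntermediateField.extendScalars hle)) :
          LaurentSeries (IsLocalRing.ResidueField A))) :=
      hg.map' (IntermediateField.extendScalars hle).val.toLinearMap
        (LinearMap.ker_eq_bot.2 (IntermediateField.extendScalars hle).val.injective)
    choose t ht using fun i => H66.gaussResO_surjective A N' hA hℓN'
      (⟨(g i : LaurentSeries (IsLocalRing.ResidueField A)), (g i).2⟩ :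
        ↥(modularFunctionFieldFullC (IsLocalRing.ResidueField A) N'))
    refine ⟨t, ?_⟩
    have h3 : (fun i => φ (t i)) = fun i => ((g i : ↥(IntermediateField.extendScalars hle)) :
        LaurentSeries (IsLocalRing.ResidueField A)) := by
      funext i
      rw [hφdef, ht i]
    rw [h3]
    exact hg'
  obtain ⟨htr', hdeg', hsep'⟩ := key _ hφx
  exact setup_basis_of_residue A (H66.gaussO A N' hA hℓN') x φ (IsLocalRing.residue A) hφ
    IsLocalRing.residue_surjective hmem hxO hφρ
    (gauss_of_transcendental A (H66.gaussO A N' hA hℓN') x φ (IsLocalRing.residue A) hφ hmem hxO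
      hφρ htr')
    hA' hscale hdeg' hsep'

end Modular

end Fermat.Agent.S18.H85
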