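/-
S18 / wave 4, bridge leaf B2b (helper85): UNIT GRAM DETERMINANT, generic part.

`gram_unit`: let `F/E` be a finite field extension, `O` a valuation subring of `F`,
`φ : O → L` a ring homomorphism into a field whose kernel is the maximal ideal (so the residue
field of `O` sits inside `L`), `k₀` a field with `φ(O ∩ E) = k₀` inside `L`, such that every
element of `φ(O)` is separable over `k₀`.  If `θ` is an orthonormal `E`-basis of `F`
(`∑ rᵢ θᵢ ∈ O ↔ ∀ i, rᵢ ∈ O`), then the Gram determinant `det (Tr_{F/E}(θᵢ θⱼ))` is a unit of `O`.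

Mathlib only.
-/
import Mathlib

set_option autoImplicit false

noncomputable section

namespace Fermat.Agent.S18.H85

open Module

section Val

variable {F : Type*} [Field F] (O : ValuationSubring F)

theorem nonunits_mul_mem {x y : F} (hx : x ∈ O.nonunits) (hy : y ∈ O) : x * y ∈ O.nonunits := by
  rw [ValuationSubring.mem_nonunits_iff] at hx ⊢
  rw [map_mul]
  have h1 : O.valuation y ≤ 1 := (O.valuation_le_one_iff y).2 hy
  calc O.valuation x * O.valuation y ≤ O.valuation x * 1 := mul_le_mul_right h1 _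
    _ = O.valuation x := mul_one _
    _ < 1 := hx

theorem inv_mem_of_not_nonunits {x : F} (hx : x ∉ O.nonunits) : x ≠ 0 ∧ x⁻¹ ∈ O := by
  rw [ValuationSubring.mem_nonunits_iff_or] at hx
  push Not at hx
  exact hx

theorem inv_nonunits_of_unit_mul {c g : F} (hc : c ≠ 0) (hg : g ∈ O.nonunits)
    (h2 : (c * g)⁻¹ ∈ O) (hg0 : g ≠ 0) : c⁻¹ ∈ O.nonunits := by
  have h3 : c⁻¹ = g * (c * g)⁻¹ := by
    field_simp
  rw [h3]
  exact nonunits_mul_mem O hg h2

end Val


section Gram

variable {E F : Type*} [Field E] [Field F] [Algebra E F]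
  (O : ValuationSubring F) {L : Type*} [Field L] (φ : ↥O →+* L)
  {k₀ : Type*} [Field k₀] [Algebra k₀ L]

/-- An orthonormal family is linearly independent (if `O ∩ E ≠ E`). -/
theorem linearIndependent_of_orth {μ : ℕ} (θ : Fin μ → F)
    (hnt : ∃ e : E, algebraMap E F e ∉ O)
    (horth : ∀ r : Fin μ → E,
      (∑ i, algebraMap E F (r i) * θ i) ∈ O ↔ ∀ i, algebraMap E F (r i) ∈ O) :
    LinearIndependent E θ := by
  rw [Fintype.linearIndependent_iff]
  intro g hg i
  by_contra hgi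
  obtain ⟨e, he⟩ := hnt
  have h1 : (∑ j, algebraMap E F ((e / g i) * g j) * θ j) = 0 := by
    have h2 : (∑ j, algebraMap E F ((e / g i) * g j) * θ j)
        = algebraMap E F (e / g i) * ∑ j, g j • θ j := by
      rw [Finset.mul_sum]
      refine Finset.sum_congr rfl fun j _ => ?_
      rw [map_mul, Algebra.smul_def, mul_assoc]
    rw [h2, hg, mul_zero]
  have h3 := (horth fun j => (e / g i) * g j).1 (by rw [h1]; exact O.zero_mem) i
  rw [div_mul_cancel₀ e hgi] at h3
  exact he h3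

/-- The members of an orthonormal family are integral. -/
theorem mem_of_orth {μ : ℕ} (θ : Fin μ → F)
    (horth : ∀ r : Fin μ → E,
      (∑ i, algebraMap E F (r i) * θ i) ∈ O ↔ ∀ i, algebraMap E F (r i) ∈ O) (i : Fin μ) :
    θ i ∈ O := by
  classical
  have h := (horth fun j => if j = i then 1 else 0).2 (by
    intro j
    by_cases hj : j = i
    · simp only [hj, if_true, map_one]; exact O.one_mem
    · simp only [hj, if_false, map_zero]; exact O.zero_mem)
  have h2 : (∑ j, algebraMap E F (if j = i then 1 else 0) * θ j) = θ i := by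
    rw [Finset.sum_eq_single i]
    · simp
    · intro j _ hj; simp [hj]
    · intro h; exact absurd (Finset.mem_univ i) h
  rwa [h2] at h

/-- `φ` of an integral combination. -/
theorem phi_sum {μ : ℕ} (θ : Fin μ → F) (hθ : ∀ i, θ i ∈ O) (m : Fin μ → E)
    (hm : ∀ i, algebraMap E F (m i) ∈ O) (hs : (∑ i, algebraMap E F (m i) * θ i) ∈ O) :
    φ ⟨∑ i, algebraMap E F (m i) * θ i, hs⟩
      = ∑ i, φ ⟨algebraMap E F (m i), hm i⟩ * φ ⟨θ i, hθ i⟩ := by
  have h : (⟨∑ i, algebraMap E F (m i) * θ i, hs⟩ : ↥O)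
      = ∑ i, (⟨algebraMap E F (m i), hm i⟩ : ↥O) * ⟨θ i, hθ i⟩ := by
    apply Subtype.ext
    rw [AddSubmonoidClass.coe_finsetSum]
    rfl
  rw [h, map_sum]
  simp only [map_mul]

/-- The image of `φ` as an intermediate field of `L/k₀`. -/
theorem exists_resField (hφ : ∀ f : ↥O, φ f = 0 ↔ (f : F) ∈ O.nonunits)
    (h2 : ∀ y : k₀, ∃ (r : E) (hr : algebraMap E F r ∈ O), φ ⟨_, hr⟩ = algebraMap k₀ L y) :
    ∃ kF : IntermediateField k₀ L, ∀ y : L, y ∈ kF ↔ ∃ f : ↥O, φ f = y := by
  refine ⟨{ carrier := Set.range φ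
            mul_mem' := ?_
            one_mem' := ⟨1, map_one φ⟩
            add_mem' := ?_
            zero_mem' := ⟨0, map_zero φ⟩
            algebraMap_mem' := ?_
            inv_mem' := ?_ }, fun y => Iff.rfl⟩
  · rintro _ _ ⟨a, rfl⟩ ⟨b, rfl⟩
    exact ⟨a * b, map_mul φ a b⟩
  · rintro _ _ ⟨a, rfl⟩ ⟨b, rfl⟩
    exact ⟨a + b, map_add φ a b⟩
  · intro y
    obtain ⟨r, hr, hy⟩ := h2 y
    exact ⟨_, hy⟩
  · rintro _ ⟨a, rfl⟩
    by_cases ha : φ a = 0
    · rw [ha, inv_zero]; exact ⟨0, map_zero φ⟩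
    · have h1 : (a : F) ∉ O.nonunits := fun h => ha ((hφ a).2 h)
      obtain ⟨h0, hinv⟩ := inv_mem_of_not_nonunits O h1
      refine ⟨⟨(a : F)⁻¹, hinv⟩, ?_⟩
      have h3 : φ ⟨(a : F)⁻¹, hinv⟩ * φ a = 1 := by
        rw [← map_mul]
        have h4 : (⟨(a : F)⁻¹, hinv⟩ : ↥O) * a = 1 := by
          apply Subtype.ext
          change (a : F)⁻¹ * (a : F) = 1
          exact inv_mul_cancel₀ h0
        rw [h4, map_one]
      exact eq_inv_of_mul_eq_one_left h3

/-- **Unit Gram determinant.**  An orthonormal basis of `F/E` with respect to a valuation ring `O`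
whose residue extension (seen inside `L` through `φ`) is separable over `k₀ = φ(O ∩ E)` has a
Gram determinant which is a unit of `O`. -/
theorem gram_unit [FiniteDimensional E F]
    (hφ : ∀ f : ↥O, φ f = 0 ↔ (f : F) ∈ O.nonunits)
    (h1 : ∀ (r : E) (hr : algebraMap E F r ∈ O), φ ⟨_, hr⟩ ∈ (algebraMap k₀ L).range)
    (h2 : ∀ y : k₀, ∃ (r : E) (hr : algebraMap E F r ∈ O), φ ⟨_, hr⟩ = algebraMap k₀ L y)
    (hsep : ∀ f : ↥O, IsSeparable k₀ (φ f))
    (hnt : ∃ e : E, algebraMap E F e ∉ O)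
    (hval : ∀ g : F, g ≠ 0 →
      ∃ c : E, c ≠ 0 ∧ algebraMap E F c * g ∈ O ∧ (algebraMap E F c * g)⁻¹ ∈ O)
    (θ : Fin (finrank E F) → F)
    (horth : ∀ r : Fin (finrank E F) → E,
      (∑ i, algebraMap E F (r i) * θ i) ∈ O ↔ ∀ i, algebraMap E F (r i) ∈ O) :
    (Matrix.of fun i j => Algebra.trace E F (θ i * θ j)).det ≠ 0 ∧
      (algebraMap E F (Matrix.of fun i j => Algebra.trace E F (θ i * θ j)).det)⁻¹ ∈ O := by
  classical
  have hθ := mem_of_orth O θ horth
  have hli := linearIndependent_of_orth O θ hnt horth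
  have : Nonempty (Fin (finrank E F)) := Fin.pos_iff_nonempty.mp finrank_pos
  let bθ : Basis (Fin (finrank E F)) E F := basisOfLinearIndependentOfCardEqFinrank hli (by simp)
  have hbθ : ⇑bθ = θ := coe_basisOfLinearIndependentOfCardEqFinrank hli _
  have hsum : ∀ f : F, (∑ i, algebraMap E F (bθ.repr f i) * θ i) = f := by
    intro f
    conv_rhs => rw [← bθ.sum_repr f]
    refine Finset.sum_congr rfl fun i _ => ?_
    rw [Algebra.smul_def, hbθ]
  -- coordinates of integral elements are integral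
  have hrepr : ∀ f : F, f ∈ O → ∀ i, algebraMap E F (bθ.repr f i) ∈ O := by
    intro f hf
    refine (horth fun i => bθ.repr f i).1 ?_
    rwa [hsum f]
  obtain ⟨kF, hkF⟩ := exists_resField O φ hφ h2
  have hmemkF : ∀ f : ↥O, φ f ∈ kF := fun f => (hkF _).2 ⟨f, rfl⟩
  -- the reduced family
  let t : Fin (finrank E F) → ↥kF := fun i => ⟨φ ⟨θ i, hθ i⟩, hmemkF _⟩
  have ht : ∀ i, ((t i : ↥kF) : L) = φ ⟨θ i, hθ i⟩ := fun i => rfl
  have hcoe : ∀ c : Fin (finrank E F) → k₀, ((∑ i, c i • t i : ↥kF) : L)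
      = ∑ i, algebraMap k₀ L (c i) * φ ⟨θ i, hθ i⟩ := by
    intro c
    rw [IntermediateField.coe_sum]
    refine Finset.sum_congr rfl fun i _ => ?_
    rw [IntermediateField.coe_smul, Algebra.smul_def, ht]
  -- coordinates of elements of the maximal ideal
  have hnu : ∀ r : Fin (finrank E F) → E, (∑ i, algebraMap E F (r i) * θ i) ∈ O.nonunits →
      ∀ i, algebraMap E F (r i) ∈ O.nonunits := by
    intro r hr i
    by_cases hG : (∑ i, algebraMap E F (r i) * θ i) = 0
    · have h3 : ∑ i, r i • θ i = 0 := by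
        rw [← hG]
        exact Finset.sum_congr rfl fun i _ => Algebra.smul_def _ _
      have h4 := Fintype.linearIndependent_iff.1 hli r h3 i
      rw [h4, map_zero]
      exact O.nonunits.zero_mem
    · obtain ⟨c, hc, hc1, hc2⟩ := hval _ hG
      have h3 : ∀ j, algebraMap E F (c * r j) ∈ O := by
        refine (horth fun j => c * r j).1 ?_
        have h4 : (∑ j, algebraMap E F (c * r j) * θ j)
            = algebraMap E F c * ∑ i, algebraMap E F (r i) * θ i := by
          rw [Finset.mul_sum]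
          exact Finset.sum_congr rfl fun j _ => by rw [map_mul, mul_assoc]
        rwa [h4]
      have hc0 : algebraMap E F c ≠ 0 := by simpa using hc
      have h4 := inv_nonunits_of_unit_mul O hc0 hr hc2 hG
      have h5 : algebraMap E F (r i) = (algebraMap E F c)⁻¹ * algebraMap E F (c * r i) := by
        rw [map_mul]
        field_simp
      rw [h5]
      exact nonunits_mul_mem O h4 (h3 i)
  -- linear independence of the reduced family
  have hlit : LinearIndependent k₀ t := by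
    rw [Fintype.linearIndependent_iff]
    intro g hg i
    choose r hr hrg using fun j => h2 (g j)
    have hs : (∑ j, algebraMap E F (r j) * θ j) ∈ O := (horth r).2 hr
    have h3 : φ ⟨_, hs⟩ = 0 := by
      rw [phi_sum O φ θ hθ r hr hs]
      have h4 := hcoe g
      rw [hg] at h4
      rw [show ((0 : ↥kF) : L) = 0 from rfl] at h4
      rw [h4]
      exact Finset.sum_congr rfl fun j _ => by rw [hrg j]
    have h5 := hnu r ((hφ _).1 h3) i
    have h6 : φ ⟨_, hr i⟩ = 0 := (hφ _).2 h5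
    rw [hrg i] at h6
    exact (map_eq_zero _).1 h6
  -- decomposition of reduced integral elements
  have hdecomp : ∀ (f : F) (hf : f ∈ O), ∃ c : Fin (finrank E F) → k₀,
      (∀ i, algebraMap k₀ L (c i) = φ ⟨algebraMap E F (bθ.repr f i), hrepr f hf i⟩) ∧
      (⟨φ ⟨f, hf⟩, hmemkF _⟩ : ↥kF) = ∑ i, c i • t i := by
    intro f hf
    have hm := hrepr f hf
    choose c hc using fun i => h1 (bθ.repr f i) (hm i)
    refine ⟨c, hc, ?_⟩
    apply Subtype.ext
    rw [hcoe c]
    have hs : (∑ i, algebraMap E F (bθ.repr f i) * θ i) ∈ O := by rw [hsum]; exact hf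
    have hf' : (⟨f, hf⟩ : ↥O) = ⟨_, hs⟩ := Subtype.ext (hsum f).symm
    change φ ⟨f, hf⟩ = _
    rw [hf', phi_sum O φ θ hθ _ hm hs]
    exact Finset.sum_congr rfl fun i _ => by rw [hc i]
  have hspan : ⊤ ≤ Submodule.span k₀ (Set.range t) := by
    rintro ⟨y, hy⟩ -
    obtain ⟨f, rfl⟩ := (hkF y).1 hy
    obtain ⟨c, -, hc⟩ := hdecomp f f.2
    have h3 : (⟨φ f, hy⟩ : ↥kF) = ∑ i, c i • t i := hc
    rw [h3]
    exact Submodule.sum_mem _ fun i _ => Submodule.smul_mem _ _ (Submodule.subset_span ⟨i, rfl⟩)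
  let bt : Basis (Fin (finrank E F)) k₀ ↥kF := Basis.mk hlit hspan
  have hbt : ⇑bt = t := Basis.coe_mk hlit hspan
  have hreprt : ∀ (f : F) (hf : f ∈ O) (i : Fin (finrank E F)),
      algebraMap k₀ L (bt.repr ⟨φ ⟨f, hf⟩, hmemkF _⟩ i)
        = φ ⟨algebraMap E F (bθ.repr f i), hrepr f hf i⟩ := by
    intro f hf i
    obtain ⟨c, hc1, hc2⟩ := hdecomp f hf
    rw [hc2, ← hbt, bt.repr_sum_self, hc1 i]
  -- the trace commutes with `φ`
  have htr : ∀ (f : F) (hf : f ∈ O), ∃ h : algebraMap E F (Algebra.trace E F f) ∈ O,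
      φ ⟨_, h⟩ = algebraMap k₀ L (Algebra.trace k₀ ↥kF ⟨φ ⟨f, hf⟩, hmemkF _⟩) := by
    intro f hf
    have e1 : Algebra.trace E F f = ∑ i, bθ.repr (f * θ i) i := by
      rw [Algebra.trace_eq_matrix_trace bθ f, Matrix.trace]
      refine Finset.sum_congr rfl fun i _ => ?_
      rw [Matrix.diag_apply, Algebra.leftMulMatrix_eq_repr_mul, hbθ]
    have e2 : Algebra.trace k₀ ↥kF ⟨φ ⟨f, hf⟩, hmemkF _⟩
        = ∑ i, bt.repr (⟨φ ⟨f * θ i, mul_mem hf (hθ i)⟩, hmemkF _⟩) i := by
      rw [Algebra.trace_eq_matrix_trace bt, Matrix.trace]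
      refine Finset.sum_congr rfl fun i _ => ?_
      rw [Matrix.diag_apply, Algebra.leftMulMatrix_eq_repr_mul, hbt]
      congr 2
      apply Subtype.ext
      change φ ⟨f, hf⟩ * φ ⟨θ i, hθ i⟩ = φ ⟨f * θ i, _⟩
      rw [← map_mul]
      rfl
    have hmem : ∀ i, algebraMap E F (bθ.repr (f * θ i) i) ∈ O :=
      fun i => hrepr _ (mul_mem hf (hθ i)) i
    have hT : algebraMap E F (Algebra.trace E F f) ∈ O := by
      rw [e1, map_sum]
      exact sum_mem fun i _ => hmem i
    refine ⟨hT, ?_⟩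
    have h3 : (⟨_, hT⟩ : ↥O) = ∑ i, (⟨_, hmem i⟩ : ↥O) := by
      apply Subtype.ext
      rw [AddSubmonoidClass.coe_finsetSum]
      change algebraMap E F (Algebra.trace E F f) = ∑ i, algebraMap E F (bθ.repr (f * θ i) i)
      rw [e1, map_sum]
    rw [h3, map_sum, e2, map_sum]
    refine Finset.sum_congr rfl fun i _ => ?_
    rw [hreprt (f * θ i) (mul_mem hf (hθ i)) i]
  -- the Gram matrix
  have hGmem : ∀ i j, algebraMap E F (Algebra.trace E F (θ i * θ j)) ∈ O :=
    fun i j => (htr _ (mul_mem (hθ i) (hθ j))).1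
  let OE : ValuationSubring E := O.comap (algebraMap E F)
  let incl : ↥OE →+* ↥O := ((algebraMap E F).comp OE.subtype).codRestrict O (fun r => r.2)
  let G' : Matrix (Fin (finrank E F)) (Fin (finrank E F)) ↥OE :=
    Matrix.of fun i j => ⟨Algebra.trace E F (θ i * θ j), hGmem i j⟩
  have hG' : (Matrix.of fun i j => Algebra.trace E F (θ i * θ j)) = OE.subtype.mapMatrix G' := by
    ext i j
    rfl
  have hdet : (Matrix.of fun i j => Algebra.trace E F (θ i * θ j)).det = OE.subtype G'.det := by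
    rw [hG', ← RingHom.map_det]
  have hψ : (φ.comp incl) G'.det = algebraMap k₀ L (Algebra.discr k₀ bt) := by
    rw [RingHom.map_det, Algebra.discr_def, RingHom.map_det]
    congr 1
    ext i j
    obtain ⟨h, e⟩ := htr (θ i * θ j) (mul_mem (hθ i) (hθ j))
    simp only [RingHom.mapMatrix_apply, Matrix.map_apply, Algebra.traceMatrix_apply,
      Algebra.traceForm_apply]
    change φ ⟨algebraMap E F (Algebra.trace E F (θ i * θ j)), _⟩ = _
    rw [e, hbt]
    congr 2
    apply Subtype.ext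
    change φ ⟨θ i * θ j, _⟩ = φ ⟨θ i, hθ i⟩ * φ ⟨θ j, hθ j⟩
    rw [← map_mul]
    rfl
  have hfin : Module.Finite k₀ ↥kF := Module.Finite.of_basis bt
  have hsepF : Algebra.IsSeparable k₀ ↥kF := ⟨fun y => by
    obtain ⟨f, hf⟩ := (hkF y).1 y.2
    have h3 := hsep f
    rw [hf] at h3
    unfold IsSeparable at h3 ⊢
    rwa [IntermediateField.minpoly_eq]⟩
  have hne : (φ.comp incl) G'.det ≠ 0 := by
    rw [hψ]
    exact fun h => Algebra.discr_not_zero_of_basis k₀ bt ((map_eq_zero _).1 h)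
  have hnn : algebraMap E F (Matrix.of fun i j => Algebra.trace E F (θ i * θ j)).det
      ∉ O.nonunits := by
    intro h
    apply hne
    have h3 : ((incl G'.det : ↥O) : F)
        = algebraMap E F (Matrix.of fun i j => Algebra.trace E F (θ i * θ j)).det := by
      rw [hdet]
      rfl
    exact (hφ _).2 (by rw [h3]; exact h)
  obtain ⟨h0, hinv⟩ := inv_mem_of_not_nonunits O hnn
  exact ⟨fun h => h0 (by rw [h, map_zero]), hinv⟩

end Gram

end Fermat.Agent.S18.H85
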