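/-
S18 / wave 4 (helper85): the bridge `exists_setup` with EXPLICIT witnesses (request (E6) of the
S37 programme; Program J itself is not touched and keeps its existential `exists_setup`).

* the valuation ring is helper66's DEFINITION `H66.gaussO A N' hA hℓN'` (the Gauss ring of
  `F_{N'}`: ratios of `A`-integral series with denominator of nonzero reduction);
* the base function is `H28.jtop N'` (`ℓ ≥ 5`), resp. the Hauptmodul elements `hauptTwo`,
  `hauptThree` of `F_{N'}` defined below (`h₂(q^{N'/2})`, `h₃(q^{N'/3})`; helper24's series);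
* the level `N'` and the base function do NOT depend on the place `A` over `ℓ`; the base function
  has rational (indeed integral) coefficients.

Main statements:
* `setup_gaussO`      : generic assembly, `Setup Kb A (FN N') (H66.gaussO A N' hA hℓN') x`;
* `setup_top`         : `x = jtop N`, `ℓ ≠ 2, 3`;
* `setup_haupt_two`   : `x = hauptTwo n N' hN'`   (`N' = n * 2`, `ℓ ∤ N'`);
* `setup_haupt_three` : `x = hauptThree n N' hN'` (`N' = n * 3`, `ℓ ∤ N'`);
* `oneUnit_gaussO`    : one-units of `F_N` are one-units of the Gauss ring of `F_{N'}`;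
* `exists_setup_explicit` : the uniform statement (level, base function independent of `A`);
* `exists_setup_of_explicit` : the statement of `H74/Top.lean`'s `exists_setup`, as a corollary.
-/
import Fermat.Agent.S18.H28.Branch
import Fermat.Agent.S18.H28.Ratio
import Fermat.Agent.S18.H28.TopDeg
import Fermat.Agent.S18.H28.TopFacts
import Fermat.Agent.S18.H24.HauptLeaf
import Fermat.Agent.S18.H25.DegreeLeaf
import Fermat.Agent.S18.H60.IndexH28
import Fermat.Agent.S18.H60.UnitFacts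
import Fermat.Agent.S18.H49.Cartesian
import Fermat.Agent.S18.H66.Leaves
import Fermat.Agent.S18.H85.BasisDeg

set_option autoImplicit false

open AlgebraicCurve IntermediateField ModularCurve

noncomputable section

namespace Fermat.Agent.S18.H85

open Fermat.Agent.S18.H74 Fermat.Agent.S18.H28

/-! ### The Gauss ring `H66.gaussO` and the generic assembly -/

/-- helper66's `gaussO` is a Gauss ring in the sense of helper28's `IsGaussRing`. -/
theorem isGaussRing_gaussO (N' : ℕ) [NeZero N'] {ℓ : ℕ} [Fact ℓ.Prime] (hℓN' : ¬ ℓ ∣ N')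
    (A : ValuationSubring Kb) (hA : A.LiesOverPrime ℓ) :
    IsGaussRing A N' (H66.gaussO A N' hA hℓN') := by
  intro f
  constructor
  · intro h
    obtain ⟨y₁, y₂, hy₂, -, hf⟩ := (H66.mem_gaussO_iff A N' hA hℓN' f).1 h
    exact ⟨y₁, y₂, hy₂, hf⟩
  · rintro ⟨y₁, y₂, hy, hfy⟩
    exact H66.isGaussInt_of_ratio (H66.hScale_bar A N' hA hℓN') f.2 hy hfy

/-- A place of `ℚ̄` over a prime is not the trivial valuation ring. -/
theorem ne_top_of_liesOverPrime {ℓ : ℕ} [Fact ℓ.Prime] (A : ValuationSubring Kb)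
    (hA : A.LiesOverPrime ℓ) : A ≠ ⊤ := by
  have hℓ : ℓ.Prime := Fact.out
  exact (Fermat.Agent.S18.H60.unit_facts A hA 1 hℓ.not_dvd_one).1

/-- `2⁻¹ ∈ A` for a place over `ℓ ≠ 2`. -/
theorem two_inv_mem_of_ne {ℓ : ℕ} [Fact ℓ.Prime] (A : ValuationSubring Kb)
    (hA : A.LiesOverPrime ℓ) (h2 : ℓ ≠ 2) : (2 : Kb)⁻¹ ∈ A := by
  have h := Fermat.Agent.S18.H60.natCast_inv_mem_of_not_dvd A hA 2 (fun h =>
    h2 ((Nat.prime_dvd_prime_iff_eq Fact.out Nat.prime_two).mp h))
  simpa using h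

/-- `3⁻¹ ∈ A` for a place over `ℓ ≠ 3`. -/
theorem three_inv_mem_of_ne {ℓ : ℕ} [Fact ℓ.Prime] (A : ValuationSubring Kb)
    (hA : A.LiesOverPrime ℓ) (h3 : ℓ ≠ 3) : (3 : Kb)⁻¹ ∈ A := by
  have h := Fermat.Agent.S18.H60.natCast_inv_mem_of_not_dvd A hA 3 (fun h =>
    h3 ((Nat.prime_dvd_prime_iff_eq Fact.out Nat.prime_three).mp h))
  simpa using h

/-- **Generic assembly**: a base function `x` of `F_{N'}` with integral expansion, transcendental
reduction, the degree inequality, separability on the special fibre and the branch data gives a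
`Setup` for the Gauss ring `H66.gaussO`. -/
theorem setup_gaussO (N' : ℕ) [NeZero N'] {ℓ : ℕ} [Fact ℓ.Prime] (hℓN' : ¬ ℓ ∣ N')
    (A : ValuationSubring Kb) (hA : A.LiesOverPrime ℓ)
    (X0 : LaurentSeries A) (x : FN N') (hx : (x : LaurentSeries Kb) = incA A X0)
    (hxk : redA A X0 ∈ modularFunctionFieldFullC (kA A) N')
    (htr : Transcendental (kA A) (redA A X0))
    (hfin : FiniteDimensional Kb⟮x⟯ (FN N'))
    (hdeg : Module.finrank Kb⟮x⟯ (FN N') ≤
      IntermediateField.relfinrank (IntermediateField.adjoin (kA A) {redA A X0})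
        (modularFunctionFieldFullC (kA A) N'))
    (hsep : ∀ y ∈ modularFunctionFieldFullC (kA A) N',
      IsSeparable (IntermediateField.adjoin (kA A) {redA A X0}) y)
    (hbr : BranchOK A x) :
    Setup Kb A (FN N') (H66.gaussO A N' hA hℓN') x := by
  have hO := isGaussRing_gaussO N' hℓN' A hA
  have hAtop : A ≠ ⊤ := ne_top_of_liesOverPrime A hA
  have hgauss := hO.gauss X0 x hx htr
  have hbasis := basis_of_degree N' hℓN' A hA (H66.gaussO A N' hA hℓN') hO X0 x hx hxk htr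
    hfin hdeg hsep
  refine
    { mem_iff := hO.mem_iff
      gauss := hgauss
      scale := H66.exists_scale_gaussO A N' hA hℓN'
      finite := hfin
      basis := hbasis
      branch := hbr.1
      branch_inv := hbr.2
      cartesian := ?_ }
  obtain ⟨θ, hθ, -⟩ := hbasis
  exact Fermat.Agent.S18.H49.cartesian_of_setup_fields hAtop hO.mem_iff hgauss hfin ⟨θ, hθ⟩

/-- One-units of `F_N` are one-units of the Gauss ring of `F_{N'}`. -/
theorem oneUnit_gaussO (N N' : ℕ) [NeZero N'] {ℓ : ℕ} [Fact ℓ.Prime] (hℓN' : ¬ ℓ ∣ N')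
    (A : ValuationSubring Kb) (hA : A.LiesOverPrime ℓ)
    (hle : modularFunctionFieldBar N ≤ modularFunctionFieldBar N') (u : FN N)
    (hu : IsOneUnit A N u) :
    (IntermediateField.inclusion hle u : FN N') - 1 ∈ (H66.gaussO A N' hA hℓN').nonunits :=
  (isGaussRing_gaussO N' hℓN' A hA).oneUnit hle u hu

/-! ### The top function (`ℓ ≥ 5`) -/

/-- The top function `j(q^N)` is rational. -/
theorem coe_jtop (N : ℕ) [NeZero N] :
    ((jtop N : FN N) : LaurentSeries Kb) = coeffEmb Kb (qExpand ℚ N jq) := rfl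

/-- The top function `j(q^N)` is `A`-integral. -/
theorem coe_jtop_eq_incA (N : ℕ) [NeZero N] (A : ValuationSubring Kb) :
    ((jtop N : FN N) : LaurentSeries Kb) = coeffMap A.subtype (jA A N) :=
  (incA_jA A N).symm

/-- **Case `ℓ ≠ 2, 3`**: `Setup` for the Gauss ring of `F_N` and the base function `j(q^N)`. -/
theorem setup_top (N : ℕ) [NeZero N] {ℓ : ℕ} [Fact ℓ.Prime] (hℓN : ¬ ℓ ∣ N)
    (A : ValuationSubring Kb) (hA : A.LiesOverPrime ℓ) (h2 : ℓ ≠ 2) (h3 : ℓ ≠ 3) :
    Setup Kb A (FN N) (H66.gaussO A N hA hℓN) (jtop N) := by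
  refine setup_gaussO N hℓN A hA (jA A N) (jtop N) (incA_jA A N).symm ?_ ?_ (finite_top N) ?_ ?_
    (branchOK_top N A (two_inv_mem_of_ne A hA h2) (three_inv_mem_of_ne A hA h3))
  · rw [redA_jA]; exact jqModCd_mem_full (kA A) N dvd_rfl
  · rw [redA_jA]; exact transcendental_jqNModC (kA A) N
  · rw [redA_jA]; exact (finrank_top_le N).trans (psi_le_relfinrank_kA N hℓN A hA)
  · rw [redA_jA]; exact separable_kA N hℓN A hA

/-! ### The Hauptmodul of level two (`ℓ ≠ 2`) -/

/-- The Hauptmodul `h₂(qⁿ)` as an element of `F_{N'}`, `N' = n * 2`. -/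
def hauptTwo (n N' : ℕ) [NeZero n] [NeZero N'] (hN' : N' = n * 2) : FN N' :=
  ⟨Fermat.Agent.S18.H24.hauptX2 Kb n, Fermat.Agent.S18.H24.hauptX2_mem_bar n N' hN'⟩

theorem coe_hauptTwo (n N' : ℕ) [NeZero n] [NeZero N'] (hN' : N' = n * 2) :
    ((hauptTwo n N' hN' : FN N') : LaurentSeries Kb) = Fermat.Agent.S18.H24.hauptX2 Kb n := rfl

/-- `hauptTwo` is rational. -/
theorem coe_hauptTwo_eq_coeffEmb (n N' : ℕ) [NeZero n] [NeZero N'] (hN' : N' = n * 2) :
    ((hauptTwo n N' hN' : FN N') : LaurentSeries Kb) =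
      coeffEmb Kb (Fermat.Agent.S18.H24.hauptX2 ℚ n) :=
  (Fermat.Agent.S18.H24.coeffMap_hauptX2 (algebraMap ℚ Kb) n).symm

/-- `hauptTwo` is `A`-integral. -/
theorem coe_hauptTwo_eq_incA (n N' : ℕ) [NeZero n] [NeZero N'] (hN' : N' = n * 2)
    (A : ValuationSubring Kb) :
    ((hauptTwo n N' hN' : FN N') : LaurentSeries Kb) =
      coeffMap A.subtype (Fermat.Agent.S18.H24.hauptX2 A n) :=
  (Fermat.Agent.S18.H24.coeffMap_hauptX2 A.subtype n).symm

/-- `j(q^{N'}) x = (x + 16)³` for `x = hauptTwo`. -/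
theorem jtop_mul_hauptTwo (n N' : ℕ) [NeZero n] [NeZero N'] (hN' : N' = n * 2) :
    jtop N' * hauptTwo n N' hN' = (hauptTwo n N' hN' + 16) ^ 3 := by
  apply Subtype.ext
  have h := Fermat.Agent.S18.H24.hauptX2_rel2 Kb n N' hN'
  rw [← Fermat.Agent.S18.H24.coeffEmb_qExpand_jq] at h
  have h16 : ((16 : FN N') : LaurentSeries Kb) = 16 := rfl
  simpa [h16, hauptTwo] using h

/-- **Case `ℓ ≠ 2`, `2 ∣ N'`**: `Setup` for the Gauss ring of `F_{N'}` and the Hauptmodul of
level two. -/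
theorem setup_haupt_two (n N' : ℕ) [NeZero n] [NeZero N'] (hN' : N' = n * 2) {ℓ : ℕ}
    [Fact ℓ.Prime] (hℓN' : ¬ ℓ ∣ N') (A : ValuationSubring Kb) (hA : A.LiesOverPrime ℓ) :
    Setup Kb A (FN N') (H66.gaussO A N' hA hℓN') (hauptTwo n N' hN') := by
  have hℓp : ℓ.Prime := Fact.out
  have hℓ2 : ℓ ≠ 2 := by
    intro h
    exact hℓN' (by rw [hN', h]; exact dvd_mul_left 2 n)
  have hℓ2' : ¬ ℓ ∣ 2 := fun h => hℓ2 ((Nat.prime_dvd_prime_iff_eq hℓp Nat.prime_two).mp h)
  have h2k : (2 : kA A) ≠ 0 := by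
    have := Fermat.Agent.S18.H24.natCast_kA_ne_zero A hA 2 hℓ2'
    exact_mod_cast this
  have hred : redA A (Fermat.Agent.S18.H24.hauptX2 A n) = Fermat.Agent.S18.H24.hauptX2 (kA A) n :=
    Fermat.Agent.S18.H24.coeffMap_hauptX2 _ n
  have hx : ((hauptTwo n N' hN' : FN N') : LaurentSeries Kb) =
      incA A (Fermat.Agent.S18.H24.hauptX2 A n) := coe_hauptTwo_eq_incA n N' hN' A
  have hxk : redA A (Fermat.Agent.S18.H24.hauptX2 A n) ∈ modularFunctionFieldFullC (kA A) N' := by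
    rw [hred]
    exact Fermat.Agent.S18.H24.hauptX2_mem_full (kA A) h2k n N' hN'
  have htr : Transcendental (kA A) (redA A (Fermat.Agent.S18.H24.hauptX2 A n)) := by
    rw [hred]
    exact Fermat.Agent.S18.H24.transcendental_hauptX2 (kA A) n
  have hrel := jtop_mul_hauptTwo n N' hN'
  have hrelk : jqNModC (kA A) N' * redA A (Fermat.Agent.S18.H24.hauptX2 A n) =
      (redA A (Fermat.Agent.S18.H24.hauptX2 A n) + 16) ^ 3 := by
    rw [hred]
    exact Fermat.Agent.S18.H24.hauptX2_rel2 (kA A) n N' hN'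
  have hNm0 : ¬ (ℓ : ℤ) ∣ nmTwo.eval 0 := by
    rw [nmTwo_eval_zero]
    intro h
    have h' : ℓ ∣ 2 ^ 12 := by
      have : ((ℓ : ℕ) : ℤ) ∣ ((2 ^ 12 : ℕ) : ℤ) := by simpa using h
      exact Int.natCast_dvd_natCast.mp this
    exact hℓ2' (hℓp.dvd_of_dvd_pow h')
  obtain ⟨hfin, hdeg, hsep⟩ :=
    Fermat.Agent.S18.H25.degree_data_of_rel N' hℓN' A hA (Fermat.Agent.S18.H24.hauptX2 A n)
      (hauptTwo n N' hN') hx hxk htr nmTwo nmTwo_monic (by rw [nmTwo_natDegree]; norm_num) hNm0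
      (hrel.trans (eval₂_nmTwo _).symm) (hrelk.trans (eval₂_nmTwo _).symm)
  exact setup_gaussO N' hℓN' A hA (Fermat.Agent.S18.H24.hauptX2 A n) (hauptTwo n N' hN') hx hxk
    htr hfin hdeg hsep
    (branchOK_two N' A (two_inv_mem_of_ne A hA hℓ2) (hauptTwo n N' hN') hrel)

/-! ### The Hauptmodul of level three (`ℓ ≠ 3`) -/

/-- The Hauptmodul `h₃(qⁿ)` as an element of `F_{N'}`, `N' = n * 3`. -/
def hauptThree (n N' : ℕ) [NeZero n] [NeZero N'] (hN' : N' = n * 3) : FN N' :=
  ⟨Fermat.Agent.S18.H24.hauptX3 Kb n, Fermat.Agent.S18.H24.hauptX3_mem_bar n N' hN'⟩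

theorem coe_hauptThree (n N' : ℕ) [NeZero n] [NeZero N'] (hN' : N' = n * 3) :
    ((hauptThree n N' hN' : FN N') : LaurentSeries Kb) = Fermat.Agent.S18.H24.hauptX3 Kb n := rfl

/-- `hauptThree` is rational. -/
theorem coe_hauptThree_eq_coeffEmb (n N' : ℕ) [NeZero n] [NeZero N'] (hN' : N' = n * 3) :
    ((hauptThree n N' hN' : FN N') : LaurentSeries Kb) =
      coeffEmb Kb (Fermat.Agent.S18.H24.hauptX3 ℚ n) :=
  (Fermat.Agent.S18.H24.coeffMap_hauptX3 (algebraMap ℚ Kb) n).symm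

/-- `hauptThree` is `A`-integral. -/
theorem coe_hauptThree_eq_incA (n N' : ℕ) [NeZero n] [NeZero N'] (hN' : N' = n * 3)
    (A : ValuationSubring Kb) :
    ((hauptThree n N' hN' : FN N') : LaurentSeries Kb) =
      coeffMap A.subtype (Fermat.Agent.S18.H24.hauptX3 A n) :=
  (Fermat.Agent.S18.H24.coeffMap_hauptX3 A.subtype n).symm

/-- `j(q^{N'}) x = (x + 27)(x + 3)³` for `x = hauptThree`. -/
theorem jtop_mul_hauptThree (n N' : ℕ) [NeZero n] [NeZero N'] (hN' : N' = n * 3) :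
    jtop N' * hauptThree n N' hN' =
      (hauptThree n N' hN' + 27) * (hauptThree n N' hN' + 3) ^ 3 := by
  apply Subtype.ext
  have h := Fermat.Agent.S18.H24.hauptX3_rel2 Kb n N' hN'
  rw [← Fermat.Agent.S18.H24.coeffEmb_qExpand_jq] at h
  have h27 : ((27 : FN N') : LaurentSeries Kb) = 27 := rfl
  have h3' : ((3 : FN N') : LaurentSeries Kb) = 3 := rfl
  simpa [h27, h3', hauptThree] using h

/-- **Case `ℓ ≠ 3`, `3 ∣ N'`**: `Setup` for the Gauss ring of `F_{N'}` and the Hauptmodul of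
level three. -/
theorem setup_haupt_three (n N' : ℕ) [NeZero n] [NeZero N'] (hN' : N' = n * 3) {ℓ : ℕ}
    [Fact ℓ.Prime] (hℓN' : ¬ ℓ ∣ N') (A : ValuationSubring Kb) (hA : A.LiesOverPrime ℓ) :
    Setup Kb A (FN N') (H66.gaussO A N' hA hℓN') (hauptThree n N' hN') := by
  have hℓp : ℓ.Prime := Fact.out
  have hℓ3 : ℓ ≠ 3 := by
    intro h
    exact hℓN' (by rw [hN', h]; exact dvd_mul_left 3 n)
  have hℓ3' : ¬ ℓ ∣ 3 := fun h => hℓ3 ((Nat.prime_dvd_prime_iff_eq hℓp Nat.prime_three).mp h)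
  have h3k : (3 : kA A) ≠ 0 := by
    have := Fermat.Agent.S18.H24.natCast_kA_ne_zero A hA 3 hℓ3'
    exact_mod_cast this
  have hred : redA A (Fermat.Agent.S18.H24.hauptX3 A n) = Fermat.Agent.S18.H24.hauptX3 (kA A) n :=
    Fermat.Agent.S18.H24.coeffMap_hauptX3 _ n
  have hx : ((hauptThree n N' hN' : FN N') : LaurentSeries Kb) =
      incA A (Fermat.Agent.S18.H24.hauptX3 A n) := coe_hauptThree_eq_incA n N' hN' A
  have hxk : redA A (Fermat.Agent.S18.H24.hauptX3 A n) ∈ modularFunctionFieldFullC (kA A) N' := by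
    rw [hred]
    exact Fermat.Agent.S18.H24.hauptX3_mem_full (kA A) h3k n N' hN'
  have htr : Transcendental (kA A) (redA A (Fermat.Agent.S18.H24.hauptX3 A n)) := by
    rw [hred]
    exact Fermat.Agent.S18.H24.transcendental_hauptX3 (kA A) n
  have hrel := jtop_mul_hauptThree n N' hN'
  have hrelk : jqNModC (kA A) N' * redA A (Fermat.Agent.S18.H24.hauptX3 A n) =
      (redA A (Fermat.Agent.S18.H24.hauptX3 A n) + 27) *
        (redA A (Fermat.Agent.S18.H24.hauptX3 A n) + 3) ^ 3 := by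
    rw [hred]
    exact Fermat.Agent.S18.H24.hauptX3_rel2 (kA A) n N' hN'
  have hNm0 : ¬ (ℓ : ℤ) ∣ nmThree.eval 0 := by
    rw [nmThree_eval_zero]
    intro h
    have h' : ℓ ∣ 3 ^ 6 := by
      have : ((ℓ : ℕ) : ℤ) ∣ ((3 ^ 6 : ℕ) : ℤ) := by simpa using h
      exact Int.natCast_dvd_natCast.mp this
    exact hℓ3' (hℓp.dvd_of_dvd_pow h')
  obtain ⟨hfin, hdeg, hsep⟩ :=
    Fermat.Agent.S18.H25.degree_data_of_rel N' hℓN' A hA (Fermat.Agent.S18.H24.hauptX3 A n)
      (hauptThree n N' hN') hx hxk htr nmThree nmThree_monic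
      (by rw [nmThree_natDegree]; norm_num) hNm0
      (hrel.trans (eval₂_nmThree _).symm) (hrelk.trans (eval₂_nmThree _).symm)
  exact setup_gaussO N' hℓN' A hA (Fermat.Agent.S18.H24.hauptX3 A n) (hauptThree n N' hN') hx hxk
    htr hfin hdeg hsep
    (branchOK_three N' A (three_inv_mem_of_ne A hA hℓ3) (hauptThree n N' hN') hrel)

/-! ### The uniform statement -/

/-- The conclusion of `exists_setup_explicit` for a given level and base function. -/
def ExplicitData (N : ℕ) (ℓ : ℕ) [Fact ℓ.Prime] (m : ℕ) (N' : ℕ) [NeZero N']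
    (hℓN' : ¬ ℓ ∣ N') (hle : modularFunctionFieldBar N ≤ modularFunctionFieldBar N')
    (x : FN N') : Prop :=
  N ∣ N' ∧
  (∃ X0 : LaurentSeries ℚ, (x : LaurentSeries Kb) = coeffEmb Kb X0) ∧
  (letI := algFN N N' hle;
    (Module.finrank (FN N) (FN N')).Coprime m ∧ Module.Finite (FN N) (FN N')) ∧
  ∀ (A : ValuationSubring Kb) (hA : A.LiesOverPrime ℓ),
    Setup Kb A (FN N') (H66.gaussO A N' hA hℓN') x ∧
    (∃ XA : LaurentSeries A, (x : LaurentSeries Kb) = coeffMap A.subtype XA) ∧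
    ∀ u : FN N, IsOneUnit A N u →
      (IntermediateField.inclusion hle u : FN N') - 1 ∈ (H66.gaussO A N' hA hℓN').nonunits

/-- `ExplicitData` at level `N' = N` (index one). -/
theorem explicitData_self (N : ℕ) [NeZero N] {ℓ : ℕ} [Fact ℓ.Prime] (hℓN : ¬ ℓ ∣ N) (m : ℕ)
    (x : FN N) (X0 : LaurentSeries ℚ) (hX0 : (x : LaurentSeries Kb) = coeffEmb Kb X0)
    (hS : ∀ (A : ValuationSubring Kb) (hA : A.LiesOverPrime ℓ),
      Setup Kb A (FN N) (H66.gaussO A N hA hℓN) x ∧
      ∃ XA : LaurentSeries A, (x : LaurentSeries Kb) = coeffMap A.subtype XA) :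
    ExplicitData N ℓ m N hℓN le_rfl x := by
  have hidx := Fermat.Agent.S18.H60.index_self N
  refine ⟨dvd_rfl, ⟨X0, hX0⟩,
    ⟨(congrArg (fun n => Nat.Coprime n m) hidx.1).mpr (Nat.coprime_one_left m), hidx.2⟩,
    fun A hA => ⟨(hS A hA).1, (hS A hA).2, fun u hu => oneUnit_gaussO N N hℓN A hA le_rfl u hu⟩⟩

/-- `ExplicitData` at level `N' = N * M`, `M` a prime not dividing `N` (index `M + 1`). -/
theorem explicitData_mul (N M : ℕ) [NeZero N] [NeZero (N * M)] (hM : M.Prime) (hMN : ¬ M ∣ N)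
    {ℓ : ℕ} [Fact ℓ.Prime] (hℓN' : ¬ ℓ ∣ N * M) (m : ℕ) (hcop : (M + 1).Coprime m)
    (x : FN (N * M)) (X0 : LaurentSeries ℚ) (hX0 : (x : LaurentSeries Kb) = coeffEmb Kb X0)
    (hS : ∀ (A : ValuationSubring Kb) (hA : A.LiesOverPrime ℓ),
      Setup Kb A (FN (N * M)) (H66.gaussO A (N * M) hA hℓN') x ∧
      ∃ XA : LaurentSeries A, (x : LaurentSeries Kb) = coeffMap A.subtype XA) :
    ExplicitData N ℓ m (N * M) hℓN'
      (Fermat.Agent.S18.H60.modularFunctionFieldBar_mono (dvd_mul_right N M)) x := by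
  have hle : modularFunctionFieldBar N ≤ modularFunctionFieldBar (N * M) :=
    Fermat.Agent.S18.H60.modularFunctionFieldBar_mono (dvd_mul_right N M)
  have hidx := Fermat.Agent.S18.H60.index_eq N M hM hMN hle
  refine ⟨dvd_mul_right N M, ⟨X0, hX0⟩,
    ⟨(congrArg (fun n => Nat.Coprime n m) hidx.1).mpr hcop, hidx.2⟩,
    fun A hA => ⟨(hS A hA).1, (hS A hA).2,
      fun u hu => oneUnit_gaussO N (N * M) hℓN' A hA hle u hu⟩⟩

/-- **The bridge with explicit witnesses.**  For `ℓ ∤ N` and `ℓ ∤ m` there are a level `N'`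
(a multiple of `N` prime to `ℓ`, with `[F_{N'} : F_N]` prime to `m`) and a base function
`x ∈ F_{N'}` with rational coefficients, both INDEPENDENT of the place `A` over `ℓ`, such that for
every place `A` of `ℚ̄` over `ℓ` the Gauss ring `H66.gaussO A N' hA hℓN'` and `x` form a `Setup`,
`x` is `A`-integral, and one-units of `F_N` are one-units of the Gauss ring. -/
theorem exists_setup_explicit (N : ℕ) [NeZero N] {ℓ : ℕ} [Fact ℓ.Prime] (hℓN : ¬ ℓ ∣ N)
    (m : ℕ) (hm : ¬ ℓ ∣ m) :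
    ∃ (N' : ℕ) (_ : NeZero N') (hℓN' : ¬ ℓ ∣ N')
      (hle : modularFunctionFieldBar N ≤ modularFunctionFieldBar N') (x : FN N'),
      ExplicitData N ℓ m N' hℓN' hle x := by
  have hℓp : ℓ.Prime := Fact.out
  by_cases h3 : ℓ = 3
  · -- Hauptmodul of level two, at level `N` or `N * 2`
    by_cases h2N : 2 ∣ N
    · obtain ⟨n, hn⟩ := h2N
      have hN' : N = n * 2 := by rw [hn, mul_comm]
      have : NeZero n := ⟨fun h0 => NeZero.ne N (by rw [hN', h0, zero_mul])⟩
      exact ⟨N, inferInstance, hℓN, le_rfl, hauptTwo n N hN',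
        explicitData_self N hℓN m _ _ (coe_hauptTwo_eq_coeffEmb n N hN')
          (fun A hA => ⟨setup_haupt_two n N hN' hℓN A hA, _, coe_hauptTwo_eq_incA n N hN' A⟩)⟩
    · have hne : NeZero (N * 2) := ⟨Nat.mul_ne_zero (NeZero.ne N) two_ne_zero⟩
      have hℓN' : ¬ ℓ ∣ N * 2 := by
        intro h
        rcases (Nat.Prime.dvd_mul hℓp).mp h with h | h
        · exact hℓN h
        · rw [h3] at h
          exact absurd h (by norm_num)
      have hcop : (2 + 1).Coprime m := by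
        rw [h3] at hm
        exact (Nat.Prime.coprime_iff_not_dvd Nat.prime_three).mpr hm
      exact ⟨N * 2, hne, hℓN', _, hauptTwo N (N * 2) rfl,
        explicitData_mul N 2 Nat.prime_two h2N hℓN' m hcop _ _
          (coe_hauptTwo_eq_coeffEmb N (N * 2) rfl)
          (fun A hA => ⟨setup_haupt_two N (N * 2) rfl hℓN' A hA, _,
            coe_hauptTwo_eq_incA N (N * 2) rfl A⟩)⟩
  by_cases h2 : ℓ = 2
  · -- Hauptmodul of level three, at level `N` or `N * 3`
    by_cases h3N : 3 ∣ N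
    · obtain ⟨n, hn⟩ := h3N
      have hN' : N = n * 3 := by rw [hn, mul_comm]
      have : NeZero n := ⟨fun h0 => NeZero.ne N (by rw [hN', h0, zero_mul])⟩
      exact ⟨N, inferInstance, hℓN, le_rfl, hauptThree n N hN',
        explicitData_self N hℓN m _ _ (coe_hauptThree_eq_coeffEmb n N hN')
          (fun A hA => ⟨setup_haupt_three n N hN' hℓN A hA, _,
            coe_hauptThree_eq_incA n N hN' A⟩)⟩
    · have hne : NeZero (N * 3) := ⟨Nat.mul_ne_zero (NeZero.ne N) three_ne_zero⟩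
      have hℓN' : ¬ ℓ ∣ N * 3 := by
        intro h
        rcases (Nat.Prime.dvd_mul hℓp).mp h with h | h
        · exact hℓN h
        · rw [h2] at h
          exact absurd h (by norm_num)
      have hcop : (3 + 1).Coprime m := by
        rw [h2] at hm
        have h : Nat.Coprime 2 m := (Nat.Prime.coprime_iff_not_dvd Nat.prime_two).mpr hm
        exact Nat.Coprime.pow_left 2 h
      exact ⟨N * 3, hne, hℓN', _, hauptThree N (N * 3) rfl,
        explicitData_mul N 3 Nat.prime_three h3N hℓN' m hcop _ _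
          (coe_hauptThree_eq_coeffEmb N (N * 3) rfl)
          (fun A hA => ⟨setup_haupt_three N (N * 3) rfl hℓN' A hA, _,
            coe_hauptThree_eq_incA N (N * 3) rfl A⟩)⟩
  · -- the top function at level `N`
    exact ⟨N, inferInstance, hℓN, le_rfl, jtop N,
      explicitData_self N hℓN m _ _ (coe_jtop N)
        (fun A hA => ⟨setup_top N hℓN A hA h2 h3, _, coe_jtop_eq_incA N A⟩)⟩

/-- The bridge in the existential shape of `H74/Top.lean` (`exists_setup`), as a corollary. -/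
theorem exists_setup_of_explicit (N : ℕ) [NeZero N] {ℓ : ℕ} [Fact ℓ.Prime] (hℓN : ¬ ℓ ∣ N)
    (A : ValuationSubring Kb) (hA : A.LiesOverPrime ℓ) (m : ℕ) (hm : ¬ ℓ ∣ m) :
    ∃ (N' : ℕ) (_ : NeZero N') (hle : modularFunctionFieldBar N ≤ modularFunctionFieldBar N')
      (O : ValuationSubring (FN N')) (x : FN N'),
      Setup Kb A (FN N') O x ∧
      (letI := algFN N N' hle;
        (Module.finrank (FN N) (FN N')).Coprime m ∧ Module.Finite (FN N) (FN N')) ∧
      ∀ u : FN N, IsOneUnit A N u →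
        (IntermediateField.inclusion hle u : FN N') - 1 ∈ O.nonunits := by
  obtain ⟨N', hne, hℓN', hle, x, -, -, hidx, hS⟩ := exists_setup_explicit N hℓN m hm
  exact ⟨N', hne, hle, H66.gaussO A N' hA hℓN', x, (hS A hA).1, hidx, (hS A hA).2.2⟩

end Fermat.Agent.S18.H85
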