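/-
S18 / wave 4 (helper85): the Hauptmodul cases of the explicit bridge (`H85/SetupExplicit.lean`)
in the existential shapes asked for by the S37 programme (arbitrary level `M`, hypothesis
`2 ∣ M` resp. `3 ∣ M`; the valuation ring is the DEFINITION `H66.gaussO A M hA hℓM`).

* `exists_setup_haupt_two`, `exists_setup_haupt_three` : for a given place `A`;
* `exists_haupt_two_uniform`, `exists_haupt_three_uniform` : one base function for ALL places
  `A` over ALL primes `ℓ ∤ M`.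

(The case `ℓ ≠ 2, 3` is `H85.setup_top`, base function `H28.jtop M`.)
-/
import Fermat.Agent.S18.H85.SetupExplicit

set_option autoImplicit false

open AlgebraicCurve IntermediateField ModularCurve

noncomputable section

namespace Fermat.Agent.S18.H85

open Fermat.Agent.S18.H74 Fermat.Agent.S18.H28

/-- **Level two, all places at once**: for `2 ∣ M` there is a rational base function `x ∈ F_M`
with `j(q^M) x = (x + 16)³` which, for every prime `ℓ ∤ M` and every place `A` over `ℓ`, forms a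
`Setup` with the Gauss ring `H66.gaussO A M hA hℓM` and is `A`-integral. -/
theorem exists_haupt_two_uniform (M : ℕ) [NeZero M] (h2M : 2 ∣ M) :
    ∃ x : FN M, jtop M * x = (x + 16) ^ 3 ∧
      (∃ X0 : LaurentSeries ℚ, (x : LaurentSeries Kb) = coeffEmb Kb X0) ∧
      ∀ (ℓ : ℕ) [Fact ℓ.Prime] (hℓM : ¬ ℓ ∣ M) (A : ValuationSubring Kb)
        (hA : A.LiesOverPrime ℓ),
        Setup Kb A (FN M) (H66.gaussO A M hA hℓM) x ∧
        ∃ XA : LaurentSeries A, (x : LaurentSeries Kb) = coeffMap A.subtype XA := by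
  obtain ⟨n, hn⟩ := h2M
  have hM : M = n * 2 := by rw [hn, mul_comm]
  have : NeZero n := ⟨fun h0 => NeZero.ne M (by rw [hM, h0, zero_mul])⟩
  exact ⟨hauptTwo n M hM, jtop_mul_hauptTwo n M hM, ⟨_, coe_hauptTwo_eq_coeffEmb n M hM⟩,
    fun ℓ _ hℓM A hA => ⟨setup_haupt_two n M hM hℓM A hA, _, coe_hauptTwo_eq_incA n M hM A⟩⟩

/-- **Level three, all places at once**: for `3 ∣ M` there is a rational base function
`x ∈ F_M` with `j(q^M) x = (x + 27)(x + 3)³` which, for every prime `ℓ ∤ M` and every place `A`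
over `ℓ`, forms a `Setup` with the Gauss ring `H66.gaussO A M hA hℓM` and is `A`-integral. -/
theorem exists_haupt_three_uniform (M : ℕ) [NeZero M] (h3M : 3 ∣ M) :
    ∃ x : FN M, jtop M * x = (x + 27) * (x + 3) ^ 3 ∧
      (∃ X0 : LaurentSeries ℚ, (x : LaurentSeries Kb) = coeffEmb Kb X0) ∧
      ∀ (ℓ : ℕ) [Fact ℓ.Prime] (hℓM : ¬ ℓ ∣ M) (A : ValuationSubring Kb)
        (hA : A.LiesOverPrime ℓ),
        Setup Kb A (FN M) (H66.gaussO A M hA hℓM) x ∧
        ∃ XA : LaurentSeries A, (x : LaurentSeries Kb) = coeffMap A.subtype XA := by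
  obtain ⟨n, hn⟩ := h3M
  have hM : M = n * 3 := by rw [hn, mul_comm]
  have : NeZero n := ⟨fun h0 => NeZero.ne M (by rw [hM, h0, zero_mul])⟩
  exact ⟨hauptThree n M hM, jtop_mul_hauptThree n M hM, ⟨_, coe_hauptThree_eq_coeffEmb n M hM⟩,
    fun ℓ _ hℓM A hA => ⟨setup_haupt_three n M hM hℓM A hA, _, coe_hauptThree_eq_incA n M hM A⟩⟩

/-- **Level two** (`2 ∣ M`, `ℓ ∤ M`): a `Setup` for the Gauss ring of `F_M` with a rational,
`A`-integral base function `x`, `j(q^M) x = (x + 16)³`. -/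
theorem exists_setup_haupt_two (M : ℕ) [NeZero M] {ℓ : ℕ} [Fact ℓ.Prime] (hℓM : ¬ ℓ ∣ M)
    (A : ValuationSubring Kb) (hA : A.LiesOverPrime ℓ) (h2M : 2 ∣ M) :
    ∃ x : FN M, Setup Kb A (FN M) (H66.gaussO A M hA hℓM) x ∧ jtop M * x = (x + 16) ^ 3 ∧
      (∃ X0 : LaurentSeries ℚ, (x : LaurentSeries Kb) = coeffEmb Kb X0) ∧
      (∃ XA : LaurentSeries A, (x : LaurentSeries Kb) = coeffMap A.subtype XA) := by
  obtain ⟨x, hrel, hrat, hS⟩ := exists_haupt_two_uniform M h2M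
  exact ⟨x, (hS ℓ hℓM A hA).1, hrel, hrat, (hS ℓ hℓM A hA).2⟩

/-- **Level three** (`3 ∣ M`, `ℓ ∤ M`): a `Setup` for the Gauss ring of `F_M` with a rational,
`A`-integral base function `x`, `j(q^M) x = (x + 27)(x + 3)³`. -/
theorem exists_setup_haupt_three (M : ℕ) [NeZero M] {ℓ : ℕ} [Fact ℓ.Prime] (hℓM : ¬ ℓ ∣ M)
    (A : ValuationSubring Kb) (hA : A.LiesOverPrime ℓ) (h3M : 3 ∣ M) :
    ∃ x : FN M, Setup Kb A (FN M) (H66.gaussO A M hA hℓM) x ∧
      jtop M * x = (x + 27) * (x + 3) ^ 3 ∧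
      (∃ X0 : LaurentSeries ℚ, (x : LaurentSeries Kb) = coeffEmb Kb X0) ∧
      (∃ XA : LaurentSeries A, (x : LaurentSeries Kb) = coeffMap A.subtype XA) := by
  obtain ⟨x, hrel, hrat, hS⟩ := exists_haupt_three_uniform M h3M
  exact ⟨x, (hS ℓ hℓM A hA).1, hrel, hrat, (hS ℓ hℓM A hA).2⟩

end Fermat.Agent.S18.H85
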