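/-
S18 / wave 4 (helper85): the bridge B7 in the shape consumed by the landed Program J assembly
(`H74.SetupStatement`, hypothesis `hsetup` of `H74.s18_of_setup_clear_count` /
`H74.s18_of_setup_absT`), from the explicit bridge `H85.exists_setup_explicit`.

* `setupStatement N hℓN A hA m hm : H74.SetupStatement N A m`;
* `setupStatement_prime` : the literal shape of the hypothesis `hsetup`
  (`∀ p, p.Prime → p ≠ ℓ → SetupStatement N A p`).
-/
import Fermat.Agent.S18.H85.SetupExplicit
import Fermat.Agent.S18.H74.Assembly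

set_option autoImplicit false

open AlgebraicCurve IntermediateField ModularCurve

noncomputable section

namespace Fermat.Agent.S18.H85

open Fermat.Agent.S18.H74

/-- **Bridge B7** in the shape of the landed `H74.SetupStatement`. -/
theorem setupStatement (N : ℕ) [NeZero N] {ℓ : ℕ} [Fact ℓ.Prime] (hℓN : ¬ ℓ ∣ N)
    (A : ValuationSubring Kb) (hA : A.LiesOverPrime ℓ) (m : ℕ) (hm : ¬ ℓ ∣ m) :
    SetupStatement N A m := by
  obtain ⟨N', hne, hℓN', hle, x, -, -, hidx, hS⟩ := exists_setup_explicit N hℓN m hm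
  exact ⟨N', hle, H66.gaussO A N' hA hℓN', x, (hS A hA).1, hidx, (hS A hA).2.2⟩

/-- The hypothesis `hsetup` of `H74.s18_of_setup_clear_count` / `H74.s18_of_setup_absT`. -/
theorem setupStatement_prime (N : ℕ) [NeZero N] {ℓ : ℕ} [Fact ℓ.Prime] (hℓN : ¬ ℓ ∣ N)
    (A : ValuationSubring Kb) (hA : A.LiesOverPrime ℓ) :
    ∀ p : ℕ, p.Prime → p ≠ ℓ → SetupStatement N A p := by
  intro p hp hpℓ
  have hℓ : ℓ.Prime := Fact.out
  exact setupStatement N hℓN A hA p
    (fun h => hpℓ ((Nat.prime_dvd_prime_iff_eq hℓ hp).mp h).symm)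

end Fermat.Agent.S18.H85
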